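import Mathlib
import Fermat.Prelude.Def_CuspForm_HeckeGaloisRepDatum
import Fermat.Prelude.Def_GaloisRep_ComplexConjugation
import Fermat.Agent.S31.Defs

/-!
# S30 (chapter ADIC): the interface with the geometric chapters

* the geometric chapters (ES + NV, for the moduli `m = p ^ n`) produce a `S31.KummerSystem N p`
  (see `Fermat/Agent/S31/Defs.lean`) which moreover satisfies `IsTate` (Galois stability of the
  image of the lattice, compatibility in `n`);
* `AdicESDatum N p` : the resulting `p`-adic Tate module in coordinates (integer matrices and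
  congruences); this is what the abstract chapter consumes.
-/

set_option autoImplicit false

namespace Fermat.Agent.S30

/-- the absolute Galois group of `ℚ`. -/
abbrev GQ : Type := AlgebraicClosure ℚ ≃ₐ[ℚ] AlgebraicClosure ℚ

/-- entrywise congruence of matrices modulo an ideal. -/
def MCong {R : Type*} [CommRing R] {m n : Type*} (I : Ideal R) (A B : Matrix m n R) : Prop :=
  ∀ i j, A i j - B i j ∈ I

/-- the ideal `(p ^ n)` of `ℤ`. -/
def pIdeal (p n : ℕ) : Ideal ℤ := Ideal.span {(p : ℤ) ^ n}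

/-- the primes at which the geometric input says something. -/
def Good (N p ℓ : ℕ) : Prop := ℓ.Prime ∧ ¬ ℓ ∣ N * p

instance (N p ℓ : ℕ) : Decidable (Good N p ℓ) := inferInstanceAs (Decidable (_ ∧ _))

/-- the Hecke operator `T_ℓ` on `S₂(Γ₀(N))` for a prime `ℓ ∤ N p`, and `0` otherwise. -/
noncomputable def heckeOp (N p : ℕ) [NeZero N] (ℓ : ℕ) :
    Module.End ℂ (CuspForm (CongruenceSubgroup.Gamma0 N) 2) :=
  if Good N p ℓ then S31.heckeFam N ℓ else 0

/-- The `p`-adic Tate module of `J₀(N)` in coordinates: `T ℓ` are the Hecke operators on a free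
`ℤ`-module of rank `r` (`0` unless `ℓ ∤ N p` is prime), and `R n σ` is an integer matrix lifting
the action of `σ` on `H / p ^ n H`. -/
structure AdicESDatum (N p : ℕ) [NeZero N] : Type where
  r : ℕ
  T : ℕ → Matrix (Fin r) (Fin r) ℤ
  T_comm : ∀ ℓ ℓ' : ℕ, T ℓ * T ℓ' = T ℓ' * T ℓ
  R : ℕ → GQ → Matrix (Fin r) (Fin r) ℤ
  R_one : ∀ n, MCong (pIdeal p n) (R n 1) 1
  R_mul : ∀ n σ τ, MCong (pIdeal p n) (R n (σ * τ)) (R n σ * R n τ)
  R_succ : ∀ n σ, MCong (pIdeal p n) (R (n + 1) σ) (R n σ)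
  R_T : ∀ n σ ℓ, MCong (pIdeal p n) (R n σ * T ℓ) (T ℓ * R n σ)
  level : ∀ n, ∃ L : IntermediateField ℚ (AlgebraicClosure ℚ), FiniteDimensional ℚ L ∧
    ∀ σ : GQ, (∀ x ∈ L, σ x = x) → MCong (pIdeal p n) (R n σ) 1
  unram : ∀ n, ∀ q : ℕ, q.Prime → ¬ q ∣ N * p →
    ∀ A : ValuationSubring (AlgebraicClosure ℚ), A.LiesOverPrime q →
      ∀ σ ∈ A.inertiaSubgroupIn ℚ, MCong (pIdeal p n) (R n σ) 1
  es : ∀ n, ∀ ℓ : ℕ, ℓ.Prime → ¬ ℓ ∣ N * p →
    ∀ A : ValuationSubring (AlgebraicClosure ℚ), A.LiesOverPrime ℓ →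
      ∀ σ : GQ, A.IsFrobeniusAt σ ℓ →
        MCong (pIdeal p n) (R n σ * R n σ + (ℓ : ℤ) • 1) (T ℓ * R n σ)
  link : ∀ P : FreeAlgebra ℤ ℕ, FreeAlgebra.lift ℤ T P = 0 → FreeAlgebra.lift ℤ (heckeOp N p) P = 0

/-- What S30 needs from the geometric side IN ADDITION to a `S31.KummerSystem`: the image of the
lattice `H` in the Kummer classes modulo `p ^ n` is stable under Galois (e.g. because `κ n` is
surjective), and the Galois actions for `n + 1` and `n` are compatible (e.g. because there is a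
Galois equivariant transition map `W (n + 1) → W n` sending `κ (n + 1) h` to `κ n h`). -/
structure IsTate {N p : ℕ} [NeZero N] (𝒦 : S31.KummerSystem N p) : Prop where
  stab : ∀ (n : ℕ) (σ : GQ) (h : 𝒦.H), ∃ h' : 𝒦.H, 𝒦.act n σ (𝒦.κ n h) = 𝒦.κ n h'
  compat : ∀ (n : ℕ) (σ : GQ) (h h' : 𝒦.H), 𝒦.act (n + 1) σ (𝒦.κ (n + 1) h) = 𝒦.κ (n + 1) h' →
    𝒦.act n σ (𝒦.κ n h) = 𝒦.κ n h'

end Fermat.Agent.S30
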