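import Fermat.Agent.S30.Cong
import Fermat.Agent.S54.Frob

/-!
# S30, T11: from the Kummer system to the datum in coordinates
-/

set_option autoImplicit false

namespace Fermat.Agent.S30

section

variable {N p : ℕ} [NeZero N] (𝒦 : S31.KummerSystem N p)

theorem convert_int_eq_zero {p : ℕ} (hp : p.Prime) (c : ℤ) (h : ∀ n : ℕ, (p : ℤ) ^ n ∣ c) :
    c = 0 := by
  refine Int.eq_zero_of_abs_lt_dvd (h c.natAbs) ?_
  have h1 : c.natAbs < p ^ c.natAbs := Nat.lt_pow_self hp.one_lt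
  have h2 : |c| = (c.natAbs : ℤ) := Int.abs_eq_natAbs c
  rw [h2]
  exact_mod_cast h1

/-- an element of `H` which is divisible by all powers of `p` vanishes. -/
theorem convert_eq_zero (hp : p.Prime) (x : 𝒦.H) (h : ∀ n : ℕ, 𝒦.κ n x = 0) : x = 0 := by
  let b := Module.finBasis ℤ 𝒦.H
  apply b.repr.injective
  ext i
  rw [map_zero, Finsupp.zero_apply]
  refine convert_int_eq_zero hp _ fun n => ?_
  obtain ⟨h', hh'⟩ := 𝒦.κ_ker n x (h n)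
  rw [hh', map_nsmul, Finsupp.smul_apply]
  exact ⟨b.repr h' i, by simp⟩

/-- the congruence criterion. -/
theorem convert_mcong {r : ℕ} (b : Module.Basis (Fin r) ℤ 𝒦.H) (n : ℕ) (f g : Module.End ℤ 𝒦.H)
    (h : ∀ x, 𝒦.κ n (f x) = 𝒦.κ n (g x)) :
    MCong (pIdeal p n) (LinearMap.toMatrixAlgEquiv b f) (LinearMap.toMatrixAlgEquiv b g) := by
  intro i j
  rw [LinearMap.toMatrixAlgEquiv_apply, LinearMap.toMatrixAlgEquiv_apply, ← Finsupp.sub_apply,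
    ← map_sub]
  obtain ⟨h', hh'⟩ := 𝒦.κ_ker n (f (b j) - g (b j)) (by rw [map_sub, h, sub_self])
  rw [hh', map_nsmul, Finsupp.smul_apply, pIdeal, Ideal.mem_span_singleton]
  exact ⟨b.repr h' i, by simp⟩

/-- `TW ℓ = σ + ℓ σ⁻¹` for a Frobenius lift `σ`. -/
theorem convert_TW_eq (n ℓ : ℕ) (hℓ : ℓ.Prime) (hℓN : ¬ ℓ ∣ N * p)
    (A : ValuationSubring (AlgebraicClosure ℚ)) (hA : A.LiesOverPrime ℓ) (σ : GQ)
    (hσ : A.IsFrobeniusAt σ ℓ) (w : 𝒦.W n) :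
    𝒦.TW n ℓ w = 𝒦.act n σ w + ℓ • 𝒦.act n σ⁻¹ w := by
  have h1 := 𝒦.es n ℓ hℓ hℓN A hA σ hσ (𝒦.act n σ⁻¹ w)
  have h2 : 𝒦.act n σ (𝒦.act n σ⁻¹ w) = w := by
    have : 𝒦.act n σ * 𝒦.act n σ⁻¹ = 1 := by rw [← map_mul, mul_inv_cancel, map_one]
    exact DFunLike.congr_fun this w
  rw [h2] at h1
  exact h1.symm

theorem convert_TW_comm (n ℓ ℓ' : ℕ) (hℓ : ℓ.Prime) (hℓN : ¬ ℓ ∣ N * p) (hℓ' : ℓ'.Prime)
    (hℓ'N : ¬ ℓ' ∣ N * p) (w : 𝒦.W n) :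
    𝒦.TW n ℓ (𝒦.TW n ℓ' w) = 𝒦.TW n ℓ' (𝒦.TW n ℓ w) := by
  obtain ⟨A, σ, hA, hσ⟩ := S54.exists_frob ℓ' hℓ'
  rw [convert_TW_eq 𝒦 n ℓ' hℓ' hℓ'N A hA σ hσ w,
    convert_TW_eq 𝒦 n ℓ' hℓ' hℓ'N A hA σ hσ (𝒦.TW n ℓ w), map_add, map_nsmul,
    𝒦.comm n ℓ hℓ hℓN, 𝒦.comm n ℓ hℓ hℓN]

theorem convert_T_comm (hp : p.Prime) (ℓ ℓ' : ℕ) (hℓ : Good N p ℓ) (hℓ' : Good N p ℓ') :
    𝒦.T ℓ * 𝒦.T ℓ' = 𝒦.T ℓ' * 𝒦.T ℓ := by
  ext x
  rw [← sub_eq_zero]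
  refine convert_eq_zero 𝒦 hp _ fun n => ?_
  rw [map_sub, sub_eq_zero, Module.End.mul_apply, Module.End.mul_apply,
    𝒦.κ_T n ℓ hℓ.1 hℓ.2, 𝒦.κ_T n ℓ' hℓ'.1 hℓ'.2, 𝒦.κ_T n ℓ' hℓ'.1 hℓ'.2, 𝒦.κ_T n ℓ hℓ.1 hℓ.2,
    convert_TW_comm 𝒦 n ℓ ℓ' hℓ.1 hℓ.2 hℓ'.1 hℓ'.2]

/-- two additive maps out of `H` which agree on a basis are equal. -/
theorem convert_ext {r : ℕ} (b : Module.Basis (Fin r) ℤ 𝒦.H) {W : Type} [AddCommGroup W]
    (f g : 𝒦.H →+ W) (h : ∀ j, f (b j) = g (b j)) (x : 𝒦.H) : f x = g x := by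
  have : f.toIntLinearMap = g.toIntLinearMap := b.ext h
  exact DFunLike.congr_fun this x

end

/-- T11a -/
theorem exists_adic {N p : ℕ} [NeZero N] (hp : p.Prime) (𝒦 : S31.KummerSystem N p)
    (h𝒦 : IsTate 𝒦) : Nonempty (AdicESDatum N p) := by
  classical
  let r := Module.finrank ℤ 𝒦.H
  let b : Module.Basis (Fin r) ℤ 𝒦.H := Module.finBasis ℤ 𝒦.H
  let M : Module.End ℤ 𝒦.H ≃ₐ[ℤ] Matrix (Fin r) (Fin r) ℤ := LinearMap.toMatrixAlgEquiv b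
  choose c hc using h𝒦.stab
  let Rl : ℕ → GQ → Module.End ℤ 𝒦.H := fun n σ => b.constr ℤ (fun j => c n σ (b j))
  have hRl : ∀ n σ x, 𝒦.κ n (Rl n σ x) = 𝒦.act n σ (𝒦.κ n x) := by
    intro n σ x
    refine convert_ext 𝒦 b ((𝒦.κ n).comp (Rl n σ).toAddMonoidHom)
      ((𝒦.act n σ : 𝒦.W n →+ 𝒦.W n).comp (𝒦.κ n)) (fun j => ?_) x
    change 𝒦.κ n (Rl n σ (b j)) = 𝒦.act n σ (𝒦.κ n (b j))
    rw [Module.Basis.constr_basis, hc]
  have hfix : ∀ n σ, (∀ x, 𝒦.act n σ (𝒦.κ n x) = 𝒦.κ n x) → MCong (pIdeal p n) (M (Rl n σ)) 1 := by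
    intro n σ h
    have := convert_mcong 𝒦 b n (Rl n σ) 1 (fun x => by rw [hRl, h, Module.End.one_apply])
    rwa [map_one] at this
  let s : FreeAlgebra ℤ ℕ →ₐ[ℤ] FreeAlgebra ℤ ℕ := FreeAlgebra.lift ℤ
    (fun ℓ => if Good N p ℓ then FreeAlgebra.ι ℤ ℓ else 0)
  have hs : ∀ ℓ, s (FreeAlgebra.ι ℤ ℓ) = if Good N p ℓ then FreeAlgebra.ι ℤ ℓ else 0 := fun ℓ =>
    FreeAlgebra.lift_ι_apply _ _
  refine ⟨{
    r := r
    T := fun ℓ => if Good N p ℓ then M (𝒦.T ℓ) else 0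
    T_comm := ?_
    R := fun n σ => M (Rl n σ)
    R_one := ?_
    R_mul := ?_
    R_succ := ?_
    R_T := ?_
    level := ?_
    unram := ?_
    es := ?_
    link := ?_ }⟩
  · intro ℓ ℓ'
    by_cases h : Good N p ℓ
    · by_cases h' : Good N p ℓ'
      · simp only [if_pos h, if_pos h']
        rw [← map_mul, ← map_mul, convert_T_comm 𝒦 hp ℓ ℓ' h h']
      · simp only [if_neg h', mul_zero, zero_mul]
    · simp only [if_neg h, mul_zero, zero_mul]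
  · intro n
    exact hfix n 1 fun x => by rw [map_one]; rfl
  · intro n σ τ
    have := convert_mcong 𝒦 b n (Rl n (σ * τ)) (Rl n σ * Rl n τ) (fun x => by
      rw [hRl, Module.End.mul_apply, hRl, hRl, map_mul]; rfl)
    rwa [map_mul] at this
  · intro n σ
    refine convert_mcong 𝒦 b n (Rl (n + 1) σ) (Rl n σ) (fun x => ?_)
    rw [hRl]
    exact (h𝒦.compat n σ x _ (hRl (n + 1) σ x).symm).symm
  · intro n σ ℓ
    by_cases h : Good N p ℓ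
    · simp only [if_pos h]
      have := convert_mcong 𝒦 b n (Rl n σ * 𝒦.T ℓ) (𝒦.T ℓ * Rl n σ) (fun x => by
        rw [Module.End.mul_apply, Module.End.mul_apply, hRl, 𝒦.κ_T n ℓ h.1 h.2,
          𝒦.κ_T n ℓ h.1 h.2, hRl, 𝒦.comm n ℓ h.1 h.2])
      rwa [map_mul, map_mul] at this
    · simp only [if_neg h, mul_zero, zero_mul]
      exact MCong.refl _
  · intro n
    choose L hL hLfix using fun j => 𝒦.smooth n (𝒦.κ n (b j))
    refine ⟨⨆ j, L j, IntermediateField.finiteDimensional_iSup_of_finite, fun σ hσ => ?_⟩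
    refine hfix n σ fun x => ?_
    refine convert_ext 𝒦 b ((𝒦.act n σ : 𝒦.W n →+ 𝒦.W n).comp (𝒦.κ n)) (𝒦.κ n) (fun j => ?_) x
    exact hLfix j σ fun y hy => hσ y ((le_iSup L j) hy)
  · intro n q hq hqN A hA σ hσ
    exact hfix n σ fun x => 𝒦.unram n q hq hqN A hA σ hσ _
  · intro n ℓ hℓ hℓN A hA σ hσ
    have hg : Good N p ℓ := ⟨hℓ, hℓN⟩
    simp only [if_pos hg]
    have := convert_mcong 𝒦 b n (Rl n σ * Rl n σ + (ℓ : ℤ) • 1) (𝒦.T ℓ * Rl n σ) (fun x => by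
      rw [LinearMap.add_apply, LinearMap.smul_apply, Module.End.mul_apply, Module.End.mul_apply,
        Module.End.one_apply, map_add, hRl, hRl, 𝒦.κ_T n ℓ hℓ hℓN, hRl, map_zsmul, natCast_zsmul]
      exact 𝒦.es n ℓ hℓ hℓN A hA σ hσ _)
    rwa [map_add, map_mul, map_mul, map_smul, map_one] at this
  · intro P hP
    have h1 : (M.toAlgHom.comp (FreeAlgebra.lift ℤ 𝒦.T)).comp s =
        FreeAlgebra.lift ℤ (fun ℓ => if Good N p ℓ then M (𝒦.T ℓ) else 0) := by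
      apply FreeAlgebra.hom_ext
      funext ℓ
      simp only [Function.comp_apply, AlgHom.comp_apply, hs, FreeAlgebra.lift_ι_apply]
      split_ifs
      · rw [FreeAlgebra.lift_ι_apply]; rfl
      · rw [map_zero, map_zero]
    have h2 : FreeAlgebra.lift ℤ 𝒦.T (s P) = 0 := by
      have := DFunLike.congr_fun h1 P
      rw [hP, AlgHom.comp_apply, AlgHom.comp_apply] at this
      exact (map_eq_zero_iff M M.injective).mp this
    have h3 := 𝒦.link _ h2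
    have h4 : (FreeAlgebra.lift ℤ (S31.heckeFam N)).comp s = FreeAlgebra.lift ℤ (heckeOp N p) := by
      apply FreeAlgebra.hom_ext
      funext ℓ
      simp only [Function.comp_apply, AlgHom.comp_apply, hs, FreeAlgebra.lift_ι_apply, heckeOp]
      split_ifs
      · rw [FreeAlgebra.lift_ι_apply]
      · rw [map_zero]
    have := DFunLike.congr_fun h4 P
    rw [AlgHom.comp_apply, h3] at this
    exact this.symm

end Fermat.Agent.S30
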