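import Mathlib

/-!
# S30, T4: the eigensystem `χ` occurs in `H ⊗ K`
-/

set_option autoImplicit false

open scoped TensorProduct

namespace Fermat.Agent.S30

/-- a finite module over a commutative ring, and a ring hom to a field killing the annihilator:
there is a nonzero semilinear functional. -/
theorem eigen_exists_functional {R M K : Type*} [CommRing R] [AddCommGroup M] [Module R M]
    [Module.Finite R M] [Field K] (φ : R →+* K)
    (hann : ∀ x : R, (∀ m : M, x • m = 0) → φ x = 0) :
    ∃ f : M →+ K, f ≠ 0 ∧ ∀ (x : R) (m : M), f (x • m) = φ x * f m := by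
  have hprime : (RingHom.ker φ).IsPrime := RingHom.ker_isPrime φ
  let p : PrimeSpectrum R := ⟨RingHom.ker φ, hprime⟩
  have hp : p ∈ Module.support R M := by
    rw [Module.mem_support_iff_of_finite]
    intro x hx
    exact hann x (Module.mem_annihilator.mp hx)
  rw [Module.mem_support_iff_nontrivial_residueField_tensorProduct] at hp
  obtain ⟨z, hz⟩ := exists_ne (0 : p.asIdeal.ResidueField ⊗[R] M)
  have hg : ∃ g : Module.Dual p.asIdeal.ResidueField (p.asIdeal.ResidueField ⊗[R] M), g z ≠ 0 := by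
    by_contra hcon
    push Not at hcon
    exact hz ((Module.forall_dual_apply_eq_zero_iff p.asIdeal.ResidueField z).mp hcon)
  obtain ⟨g, hg⟩ := hg
  let ι : p.asIdeal.ResidueField →+* K := Ideal.ResidueField.lift p.asIdeal φ le_rfl (by
    intro x hx
    have : φ x ≠ 0 := fun h => hx h
    exact this.isUnit)
  have hι : ∀ x : R, ι (algebraMap R p.asIdeal.ResidueField x) = φ x := fun x =>
    Ideal.ResidueField.lift_algebraMap _ _ _ _ x
  let f : M →+ K :=
    { toFun := fun m => ι (g (1 ⊗ₜ[R] m))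
      map_zero' := by rw [TensorProduct.tmul_zero, map_zero, map_zero]
      map_add' := fun m m' => by rw [TensorProduct.tmul_add, map_add, map_add] }
  refine ⟨f, ?_, ?_⟩
  · intro hf
    apply hg
    have h0 : ∀ m : M, g (1 ⊗ₜ[R] m) = 0 := by
      intro m
      have : f m = 0 := by rw [hf]; rfl
      exact (map_eq_zero ι).mp this
    induction z using TensorProduct.induction_on with
    | zero => exact absurd rfl hz
    | tmul c m =>
      have : c ⊗ₜ[R] m = c • ((1 : p.asIdeal.ResidueField) ⊗ₜ[R] m) := by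
        rw [TensorProduct.smul_tmul', smul_eq_mul, mul_one]
      rw [this, map_smul, h0, smul_zero]
    | add x y _ _ =>
      have hall : ∀ w : p.asIdeal.ResidueField ⊗[R] M, g w = 0 := by
        intro w
        induction w using TensorProduct.induction_on with
        | zero => exact map_zero g
        | tmul c m =>
          have : c ⊗ₜ[R] m = c • ((1 : p.asIdeal.ResidueField) ⊗ₜ[R] m) := by
            rw [TensorProduct.smul_tmul', smul_eq_mul, mul_one]
          rw [this, map_smul, h0, smul_zero]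
        | add x y hx hy => rw [map_add, hx, hy, add_zero]
      exact hall _
  · intro x m
    change ι (g (1 ⊗ₜ[R] (x • m))) = φ x * ι (g (1 ⊗ₜ[R] m))
    have : (1 : p.asIdeal.ResidueField) ⊗ₜ[R] (x • m) =
        (algebraMap R p.asIdeal.ResidueField x) • ((1 : p.asIdeal.ResidueField) ⊗ₜ[R] m) := by
      rw [TensorProduct.smul_tmul', smul_eq_mul, mul_one, TensorProduct.tmul_smul,
        TensorProduct.smul_tmul', Algebra.smul_def, mul_one]
    rw [this, map_smul, smul_eq_mul, map_mul, hι]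

open scoped IsMulCommutative in
/-- evaluation of commutative polynomials at commuting elements of a ring. -/
theorem eigen_exists_eval {A : Type*} [Ring A] (t : ℕ → A) (ht : ∀ i j, t i * t j = t j * t i) :
    ∃ ψ : MvPolynomial ℕ ℤ →+* A, ∀ P : FreeAlgebra ℤ ℕ,
      ψ (FreeAlgebra.lift ℤ (MvPolynomial.X : ℕ → MvPolynomial ℕ ℤ) P) =
        FreeAlgebra.lift ℤ t P := by
  have hcomm : IsMulCommutative (Algebra.adjoin ℤ (Set.range t)) :=
    Algebra.isMulCommutative_adjoin ℤ (by
      rintro _ ⟨i, rfl⟩ _ ⟨j, rfl⟩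
      exact ht i j)
  let ψ₀ : MvPolynomial ℕ ℤ →ₐ[ℤ] Algebra.adjoin ℤ (Set.range t) :=
    MvPolynomial.aeval fun i => ⟨t i, Algebra.subset_adjoin (Set.mem_range_self i)⟩
  let ψ₁ : MvPolynomial ℕ ℤ →ₐ[ℤ] A := (Algebra.adjoin ℤ (Set.range t)).val.comp ψ₀
  refine ⟨ψ₁.toRingHom, fun P => ?_⟩
  have : ψ₁.comp (FreeAlgebra.lift ℤ (MvPolynomial.X : ℕ → MvPolynomial ℕ ℤ)) =
      FreeAlgebra.lift ℤ t := by
    apply FreeAlgebra.hom_ext
    funext i
    simp [ψ₁, ψ₀]
  exact DFunLike.congr_fun this P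

theorem eigen_lift_X_surjective :
    Function.Surjective (FreeAlgebra.lift ℤ (MvPolynomial.X : ℕ → MvPolynomial ℕ ℤ)) := by
  intro x
  induction x using MvPolynomial.induction_on with
  | C a => exact ⟨algebraMap ℤ _ a, by simp⟩
  | add p q hp hq =>
    obtain ⟨P, rfl⟩ := hp
    obtain ⟨Q, rfl⟩ := hq
    exact ⟨P + Q, map_add _ _ _⟩
  | mul_X p i hp =>
    obtain ⟨P, rfl⟩ := hp
    exact ⟨P * FreeAlgebra.ι ℤ i, by simp⟩

/-- commuting endomorphisms of a finitely generated abelian group: a compatible eigensystem occurs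
in the dual. -/
theorem eigen_exists_dual {M : Type*} [AddCommGroup M] [Module.Finite ℤ M]
    (t : ℕ → Module.End ℤ M) (ht : ∀ i j, t i * t j = t j * t i) {K : Type*} [Field K] (a : ℕ → K)
    (h : ∀ P : FreeAlgebra ℤ ℕ, FreeAlgebra.lift ℤ t P = 0 → FreeAlgebra.lift ℤ a P = 0) :
    ∃ f : M →+ K, f ≠ 0 ∧ ∀ (ℓ : ℕ) (m : M), f (t ℓ m) = a ℓ * f m := by
  obtain ⟨ψ, hψ⟩ := eigen_exists_eval t ht
  let _ : Module (MvPolynomial ℕ ℤ) M := Module.compHom M ψ
  have hsmul : ∀ (x : MvPolynomial ℕ ℤ) (m : M), x • m = ψ x m := fun _ _ => rfl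
  have hfin : Module.Finite (MvPolynomial ℕ ℤ) M :=
    Module.Finite.of_restrictScalars_finite ℤ (MvPolynomial ℕ ℤ) M
  let φ : MvPolynomial ℕ ℤ →ₐ[ℤ] K := MvPolynomial.aeval a
  have hφ : ∀ P : FreeAlgebra ℤ ℕ,
      φ (FreeAlgebra.lift ℤ (MvPolynomial.X : ℕ → MvPolynomial ℕ ℤ) P) =
        FreeAlgebra.lift ℤ a P := by
    intro P
    have : φ.comp (FreeAlgebra.lift ℤ (MvPolynomial.X : ℕ → MvPolynomial ℕ ℤ)) =
        FreeAlgebra.lift ℤ a := by
      apply FreeAlgebra.hom_ext
      funext i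
      simp [φ]
    exact DFunLike.congr_fun this P
  obtain ⟨f, hf0, hf⟩ := eigen_exists_functional (M := M) φ.toRingHom (by
    intro x hx
    obtain ⟨P, rfl⟩ := eigen_lift_X_surjective x
    have h1 : FreeAlgebra.lift ℤ t P = 0 := by
      rw [← hψ]
      ext m
      exact hx m
    exact (hφ P).trans (h P h1))
  refine ⟨f, hf0, fun ℓ m => ?_⟩
  have h1 := hf (MvPolynomial.X ℓ) m
  have h2 : ψ (MvPolynomial.X ℓ) = t ℓ := by
    have := hψ (FreeAlgebra.ι ℤ ℓ)
    rwa [FreeAlgebra.lift_ι_apply, FreeAlgebra.lift_ι_apply] at this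
  rw [hsmul, h2] at h1
  rw [h1]
  congr 1
  exact MvPolynomial.aeval_X a ℓ

theorem eigen_lift_star_comm {K : Type*} [CommRing K] (a : ℕ → K) (P : FreeAlgebra ℤ ℕ) :
    FreeAlgebra.lift ℤ a (star P) = FreeAlgebra.lift ℤ a P := by
  induction P using FreeAlgebra.induction with
  | grade0 r => rw [FreeAlgebra.star_algebraMap]
  | grade1 x => rw [FreeAlgebra.star_ι]
  | mul x y hx hy => rw [star_mul, map_mul, map_mul, hx, hy, mul_comm]
  | add x y hx hy => rw [star_add, map_add, map_add, hx, hy]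

theorem eigen_lift_transpose {r : ℕ} (T : ℕ → Matrix (Fin r) (Fin r) ℤ) (P : FreeAlgebra ℤ ℕ) :
    FreeAlgebra.lift ℤ (fun ℓ => Matrix.toLin' (T ℓ).transpose) P =
      Matrix.toLin' (FreeAlgebra.lift ℤ T (star P)).transpose := by
  induction P using FreeAlgebra.induction with
  | grade0 r =>
    rw [FreeAlgebra.star_algebraMap, AlgHom.commutes, AlgHom.commutes,
      Algebra.algebraMap_eq_smul_one, Algebra.algebraMap_eq_smul_one, Matrix.transpose_smul,
      Matrix.transpose_one, map_smul, Matrix.toLin'_one]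
    rfl
  | grade1 x => rw [FreeAlgebra.star_ι, FreeAlgebra.lift_ι_apply, FreeAlgebra.lift_ι_apply]
  | mul x y hx hy =>
    rw [star_mul, map_mul, map_mul, hx, hy, Matrix.transpose_mul, Matrix.toLin'_mul]
    rfl
  | add x y hx hy => rw [star_add, map_add, map_add, hx, hy, Matrix.transpose_add, map_add]

/-- T4a: commuting integer matrices; a system of eigenvalues in a field which is compatible with
all polynomial relations between the matrices occurs. -/
theorem exists_eigenvector {r : ℕ} (T : ℕ → Matrix (Fin r) (Fin r) ℤ)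
    (hT : ∀ ℓ ℓ' : ℕ, T ℓ * T ℓ' = T ℓ' * T ℓ) {K : Type} [Field K] (a : ℕ → K)
    (h : ∀ P : FreeAlgebra ℤ ℕ, FreeAlgebra.lift ℤ T P = 0 → FreeAlgebra.lift ℤ a P = 0) :
    ∃ v : Fin r → K, v ≠ 0 ∧ ∀ ℓ, ((T ℓ).map (Int.castRingHom K)).mulVec v = a ℓ • v := by
  obtain ⟨f, hf0, hf⟩ := eigen_exists_dual (M := Fin r → ℤ)
    (fun ℓ => Matrix.toLin' (T ℓ).transpose) (by
      intro i j
      change Matrix.toLin' (T i).transpose ∘ₗ Matrix.toLin' (T j).transpose =
        Matrix.toLin' (T j).transpose ∘ₗ Matrix.toLin' (T i).transpose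
      rw [← Matrix.toLin'_mul, ← Matrix.toLin'_mul, ← Matrix.transpose_mul, ← Matrix.transpose_mul,
        hT]) a (by
      intro P hP
      rw [eigen_lift_transpose] at hP
      have h1 : (FreeAlgebra.lift ℤ T (star P)).transpose = 0 := by
        apply Matrix.toLin'.injective
        rw [hP, map_zero]
      have h2 : FreeAlgebra.lift ℤ T (star P) = 0 := by
        rw [← Matrix.transpose_transpose (FreeAlgebra.lift ℤ T (star P)), h1,
          Matrix.transpose_zero]
      rw [← eigen_lift_star_comm]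
      exact h _ h2)
  have hsum : ∀ m : Fin r → ℤ, f m = ∑ i, (m i : K) * f (Pi.single i 1) := by
    intro m
    conv_lhs => rw [pi_eq_sum_univ' m]
    rw [map_sum]
    refine Finset.sum_congr rfl fun i _ => ?_
    rw [map_zsmul, zsmul_eq_mul]
  refine ⟨fun i => f (Pi.single i 1), ?_, fun ℓ => ?_⟩
  · intro h0
    apply hf0
    refine DFunLike.ext _ _ fun m => ?_
    rw [hsum, AddMonoidHom.zero_apply]
    refine Finset.sum_eq_zero fun i _ => ?_
    rw [congrFun h0 i, Pi.zero_apply, mul_zero]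
  · funext j
    have h1 := hf ℓ (Pi.single j 1)
    rw [hsum] at h1
    rw [Pi.smul_apply, smul_eq_mul, ← h1, Matrix.mulVec, dotProduct]
    refine Finset.sum_congr rfl fun i _ => ?_
    simp [Matrix.toLin'_apply]

end Fermat.Agent.S30
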