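import Mathlib

/-!
# S30, T8a: normal forms of lines and planes over a valuation ring
-/

set_option autoImplicit false

namespace Fermat.Agent.S30

variable {𝒪 K : Type*} [CommRing 𝒪] [IsDomain 𝒪] [ValuationRing 𝒪] [Field K] [Algebra 𝒪 K]
  [IsFractionRing 𝒪 K]

/-- T8a1: a nonzero vector can be rescaled to an integral vector with one coordinate `1`. -/
theorem exists_primitive {r : ℕ} (v : Fin r → K) (hv : v ≠ 0) :
    ∃ (s : K) (w : Fin r → 𝒪) (i : Fin r), s ≠ 0 ∧ w i = 1 ∧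
      ∀ j, algebraMap 𝒪 K (w j) = s * v j := by
  classical
  obtain ⟨i₀, hi₀⟩ : ∃ i₀, v i₀ ≠ 0 := by
    by_contra h
    push Not at h
    exact hv (funext h)
  let val := ValuationRing.valuation 𝒪 K
  obtain ⟨i, -, hi⟩ := Finset.exists_max_image Finset.univ (fun i => val (v i)) ⟨i₀, Finset.mem_univ _⟩
  have hvi : v i ≠ 0 := by
    intro h
    have h1 := hi i₀ (Finset.mem_univ _)
    simp only [h, map_zero, le_zero_iff, map_eq_zero] at h1
    exact hi₀ h1
  have key : ∀ j, ∃ a : 𝒪, algebraMap 𝒪 K a = (v i)⁻¹ * v j := by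
    intro j
    rw [← ValuationRing.mem_integer_iff, Valuation.mem_integer_iff, map_mul, map_inv₀]
    have h1 := hi j (Finset.mem_univ _)
    have h2 : val (v i) ≠ 0 := by simpa using hvi
    rw [inv_mul_le_iff₀ (zero_lt_iff.mpr h2), mul_one]
    exact h1
  choose w hw using key
  refine ⟨(v i)⁻¹, w, i, inv_ne_zero hvi, ?_, hw⟩
  apply IsFractionRing.injective 𝒪 K
  rw [hw, inv_mul_cancel₀ hvi, map_one]

/-- T8a2: a plane has an integral basis in reduced echelon form. -/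
theorem exists_plane_basis {r : ℕ} (x y : Fin r → K)
    (hxy : ∀ α β : K, α • x + β • y = 0 → α = 0 ∧ β = 0) :
    ∃ (x' y' : Fin r → 𝒪) (i j : Fin r), x' i = 1 ∧ x' j = 0 ∧ y' i = 0 ∧ y' j = 1 ∧
      (∃ α β : K, (fun k => algebraMap 𝒪 K (x' k)) = α • x + β • y) ∧
      (∃ α β : K, (fun k => algebraMap 𝒪 K (y' k)) = α • x + β • y) ∧
      (∃ α β : K, x = α • (fun k => algebraMap 𝒪 K (x' k)) + β • (fun k => algebraMap 𝒪 K (y' k))) ∧
      (∃ α β : K, y = α • (fun k => algebraMap 𝒪 K (x' k)) + β • (fun k => algebraMap 𝒪 K (y' k))) := by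
  have hx : x ≠ 0 := by
    rintro rfl
    have := (hxy 1 0 (by simp)).1
    exact one_ne_zero this
  obtain ⟨s, x₁, i, hs, hx₁i, hx₁⟩ := exists_primitive (𝒪 := 𝒪) x hx
  have hy1 : y - (y i * s) • x ≠ 0 := by
    intro h
    have h1 : (-(y i * s)) • x + (1 : K) • y = 0 := by
      rw [← h]
      module
    exact one_ne_zero (hxy _ _ h1).2
  obtain ⟨t, y', j, ht, hy'j, hy'⟩ := exists_primitive (𝒪 := 𝒪) (y - (y i * s) • x) hy1
  have hsxi : s * x i = 1 := by rw [← hx₁, hx₁i, map_one]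
  have hy'i : y' i = 0 := by
    apply IsFractionRing.injective 𝒪 K
    rw [hy', map_zero]
    simp only [Pi.sub_apply, Pi.smul_apply, smul_eq_mul]
    rw [mul_assoc, hsxi]
    ring
  let c : K := s * x j
  refine ⟨fun k => x₁ k - x₁ j * y' k, y', i, j, ?_, ?_, hy'i, hy'j, ?_, ?_, ?_, ?_⟩
  · simp [hx₁i, hy'i]
  · simp [hy'j]
  · refine ⟨s + c * t * (y i * s), -(c * t), ?_⟩
    funext k
    simp only [map_sub, map_mul, hx₁, hy', Pi.add_apply, Pi.sub_apply, Pi.smul_apply, smul_eq_mul, c]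
    ring
  · refine ⟨-(t * (y i * s)), t, ?_⟩
    funext k
    simp only [hy', Pi.add_apply, Pi.sub_apply, Pi.smul_apply, smul_eq_mul]
    ring
  · refine ⟨s⁻¹, s⁻¹ * c, ?_⟩
    funext k
    simp only [map_sub, map_mul, hx₁, Pi.add_apply, Pi.smul_apply, smul_eq_mul, c]
    field_simp
    ring
  · refine ⟨y i, t⁻¹ + y i * c, ?_⟩
    funext k
    simp only [map_sub, map_mul, hx₁, hy', Pi.add_apply, Pi.sub_apply, Pi.smul_apply, smul_eq_mul, c]
    field_simp
    ring

end Fermat.Agent.S30
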