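import Fermat.Agent.S30.Defs

/-!
# S30, T4b: the eigensystem of a point of the Hecke algebra is compatible with all relations
-/

set_option autoImplicit false

namespace Fermat.Agent.S30

/-- the system of eigenvalues attached to a point `χ` of the Hecke algebra (`0` at the bad
indices). -/
noncomputable def eigSys {N : ℕ} [NeZero N] {S : Finset ℕ} {𝒪 : Type} [CommRing 𝒪]
    (χ : CuspForm.heckeAlgebra N 2 (↑S : Set ℕ) →+* 𝒪) (ℓ : ℕ) : 𝒪 :=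
  if h : ℓ.Prime ∧ ¬ ℓ ∣ N ∧ ℓ ∉ (↑S : Set ℕ) then χ (CuspForm.heckeAlgebra.T h.1 h.2.1 h.2.2)
  else 0

open Classical in
/-- T4b -/
theorem link_eigSys {N p : ℕ} [NeZero N] (hp : p.Prime) (D : AdicESDatum N p) (S : Finset ℕ)
    (hpS : p ∈ S) {𝒪 : Type}
    [CommRing 𝒪] (χ : CuspForm.heckeAlgebra N 2 (↑S : Set ℕ) →+* 𝒪) (P : FreeAlgebra ℤ ℕ)
    (hP : FreeAlgebra.lift ℤ
      (fun ℓ => if ℓ.Prime ∧ ¬ ℓ ∣ N ∧ ℓ ∉ (↑S : Set ℕ) then D.T ℓ else 0) P = 0) :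
    FreeAlgebra.lift ℤ (eigSys χ) P = 0 := by
  let s : FreeAlgebra ℤ ℕ →ₐ[ℤ] FreeAlgebra ℤ ℕ := FreeAlgebra.lift ℤ
    (fun ℓ => if ℓ.Prime ∧ ¬ ℓ ∣ N ∧ ℓ ∉ (↑S : Set ℕ) then FreeAlgebra.ι ℤ ℓ else 0)
  have hs : ∀ ℓ, s (FreeAlgebra.ι ℤ ℓ) =
      if ℓ.Prime ∧ ¬ ℓ ∣ N ∧ ℓ ∉ (↑S : Set ℕ) then FreeAlgebra.ι ℤ ℓ else 0 := fun ℓ =>
    FreeAlgebra.lift_ι_apply _ _
  have h1 : (FreeAlgebra.lift ℤ D.T).comp s = FreeAlgebra.lift ℤ
      (fun ℓ => if ℓ.Prime ∧ ¬ ℓ ∣ N ∧ ℓ ∉ (↑S : Set ℕ) then D.T ℓ else 0) := by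
    apply FreeAlgebra.hom_ext
    funext ℓ
    simp only [Function.comp_apply, AlgHom.comp_apply, hs, FreeAlgebra.lift_ι_apply]
    split_ifs
    · exact FreeAlgebra.lift_ι_apply _ _
    · exact map_zero _
  have h2 : FreeAlgebra.lift ℤ (heckeOp N p) (s P) = 0 := by
    apply D.link
    have := DFunLike.congr_fun h1 P
    rw [AlgHom.comp_apply] at this
    rw [this, hP]
  let τ : ℕ → CuspForm.heckeAlgebra N 2 (↑S : Set ℕ) := fun ℓ =>
    if h : ℓ.Prime ∧ ¬ ℓ ∣ N ∧ ℓ ∉ (↑S : Set ℕ) then CuspForm.heckeAlgebra.T h.1 h.2.1 h.2.2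
    else 0
  have h3 : (FreeAlgebra.lift ℤ (heckeOp N p)).comp s =
      (CuspForm.heckeAlgebra N 2 (↑S : Set ℕ)).val.comp (FreeAlgebra.lift ℤ τ) := by
    apply FreeAlgebra.hom_ext
    funext ℓ
    simp only [Function.comp_apply, AlgHom.comp_apply, hs, FreeAlgebra.lift_ι_apply]
    by_cases h : ℓ.Prime ∧ ¬ ℓ ∣ N ∧ ℓ ∉ (↑S : Set ℕ)
    · have hg : Good N p ℓ := by
        refine ⟨h.1, fun hd => ?_⟩
        rcases (Nat.Prime.dvd_mul h.1).mp hd with hd | hd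
        · exact h.2.1 hd
        · have : ℓ = p := (Nat.prime_dvd_prime_iff_eq h.1 hp).mp hd
          exact h.2.2 (by rw [this]; exact_mod_cast hpS)
      rw [if_pos h, FreeAlgebra.lift_ι_apply, heckeOp, if_pos hg, S31.heckeFam,
        dif_pos ⟨h.1, h.2.1⟩]
      simp only [τ, dif_pos h]
      rfl
    · rw [if_neg h, map_zero]
      simp only [τ, dif_neg h]
      rfl
  have h4 : FreeAlgebra.lift ℤ τ P = 0 := by
    apply Subtype.ext
    have := DFunLike.congr_fun h3 P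
    rw [AlgHom.comp_apply, h2] at this
    exact this.symm
  have h5 : (χ.toIntAlgHom).comp (FreeAlgebra.lift ℤ τ) = FreeAlgebra.lift ℤ (eigSys χ) := by
    apply FreeAlgebra.hom_ext
    funext ℓ
    simp only [Function.comp_apply, AlgHom.comp_apply, FreeAlgebra.lift_ι_apply]
    by_cases h : ℓ.Prime ∧ ¬ ℓ ∣ N ∧ ℓ ∉ (↑S : Set ℕ)
    · simp only [τ, eigSys, dif_pos h]
      rfl
    · simp only [τ, eigSys, dif_neg h]
      exact map_zero χ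
  have := DFunLike.congr_fun h5 P
  rw [AlgHom.comp_apply, h4, map_zero] at this
  exact this.symm

end Fermat.Agent.S30
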