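import Fermat.Agent.S30.Cong

/-!
# S30, T3: the limit representation on `𝒪 ^ r`
-/

set_option autoImplicit false

namespace Fermat.Agent.S30

open IsLocalRing

/-- an exact `𝒪`-adic representation with Hecke operators: commutation, continuity,
unramifiedness outside `N p`, Eichler-Shimura relation. -/
structure IsAdicRep (N p : ℕ) {𝒪 : Type} [CommRing 𝒪] [IsLocalRing 𝒪] {r : ℕ}
    (T : ℕ → Matrix (Fin r) (Fin r) 𝒪) (ρ : GQ →* Matrix (Fin r) (Fin r) 𝒪) : Prop where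
  comm : ∀ σ ℓ, ρ σ * T ℓ = T ℓ * ρ σ
  level : ∀ n, ∃ L : IntermediateField ℚ (AlgebraicClosure ℚ), FiniteDimensional ℚ L ∧
    ∀ σ : GQ, (∀ x ∈ L, σ x = x) → MCong (maximalIdeal 𝒪 ^ n) (ρ σ) 1
  unram : ∀ q : ℕ, q.Prime → ¬ q ∣ N * p →
    ∀ A : ValuationSubring (AlgebraicClosure ℚ), A.LiesOverPrime q →
      ∀ σ ∈ A.inertiaSubgroupIn ℚ, ρ σ = 1
  es : ∀ ℓ : ℕ, ℓ.Prime → ¬ ℓ ∣ N * p →
    ∀ A : ValuationSubring (AlgebraicClosure ℚ), A.LiesOverPrime ℓ →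
      ∀ σ : GQ, A.IsFrobeniusAt σ ℓ → ρ σ * ρ σ + (ℓ : 𝒪) • 1 = T ℓ * ρ σ

/-- the Hecke matrices over `𝒪`. -/
def AdicESDatum.TO {N p : ℕ} [NeZero N] (D : AdicESDatum N p) (𝒪 : Type) [CommRing 𝒪] (ℓ : ℕ) :
    Matrix (Fin D.r) (Fin D.r) 𝒪 :=
  (D.T ℓ).map (Int.castRingHom 𝒪)

/-- the module of integral eigenvectors for the eigensystem `a` (at the primes `ℓ ∤ N`,
`ℓ ∉ S`). -/
def eigenModule {𝒪 : Type} [CommRing 𝒪] {r : ℕ} (N : ℕ) (S : Finset ℕ)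
    (T : ℕ → Matrix (Fin r) (Fin r) 𝒪) (a : ℕ → 𝒪) : Submodule 𝒪 (Fin r → 𝒪) where
  carrier := {v | ∀ ℓ : ℕ, ℓ.Prime → ¬ ℓ ∣ N → ℓ ∉ S → (T ℓ).mulVec v = a ℓ • v}
  add_mem' := fun {v w} hv hw ℓ h1 h2 h3 => by
    rw [Matrix.mulVec_add, hv ℓ h1 h2 h3, hw ℓ h1 h2 h3, smul_add]
  zero_mem' := fun ℓ _ _ _ => by rw [Matrix.mulVec_zero, smul_zero]
  smul_mem' := fun c v hv ℓ h1 h2 h3 => by
    rw [Matrix.mulVec_smul, hv ℓ h1 h2 h3, smul_comm]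

theorem rep_map_one {𝒪 : Type} [CommRing 𝒪] {r : ℕ} :
    (1 : Matrix (Fin r) (Fin r) ℤ).map (Int.castRingHom 𝒪) = 1 :=
  map_one (Int.castRingHom 𝒪).mapMatrix

theorem rep_map_mul {𝒪 : Type} [CommRing 𝒪] {r : ℕ} (A B : Matrix (Fin r) (Fin r) ℤ) :
    (A * B).map (Int.castRingHom 𝒪) = A.map (Int.castRingHom 𝒪) * B.map (Int.castRingHom 𝒪) :=
  map_mul (Int.castRingHom 𝒪).mapMatrix A B

/-- T3 -/
theorem exists_rep {N p : ℕ} [NeZero N] (D : AdicESDatum N p) (𝒪 : Type) [CommRing 𝒪]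
    [IsLocalRing 𝒪] [IsAdicComplete (maximalIdeal 𝒪) 𝒪] (hp : (p : 𝒪) ∈ maximalIdeal 𝒪) :
    ∃ ρ : GQ →* Matrix (Fin D.r) (Fin D.r) 𝒪, IsAdicRep N p (D.TO 𝒪) ρ := by
  set 𝔪 := maximalIdeal 𝒪 with h𝔪
  let c : Matrix (Fin D.r) (Fin D.r) ℤ → Matrix (Fin D.r) (Fin D.r) 𝒪 :=
    fun A => A.map (Int.castRingHom 𝒪)
  have hc : ∀ {n : ℕ} {A B : Matrix (Fin D.r) (Fin D.r) ℤ}, MCong (pIdeal p n) A B →
      MCong (𝔪 ^ n) (c A) (c B) := fun {n A B} h => h.map _ (pIdeal_map_le hp n)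
  choose ρ hρ using fun σ : GQ => exists_mlim 𝔪 (fun n => c (D.R n σ)) (fun n => hc (D.R_succ n σ))
  have h1 : ρ 1 = 1 := by
    refine eq_of_forall_mcong 𝔪 fun n => (hρ 1 n).trans ?_
    have := hc (D.R_one n)
    simpa only [c, rep_map_one] using this
  have hmul : ∀ σ τ, ρ (σ * τ) = ρ σ * ρ τ := by
    intro σ τ
    refine eq_of_forall_mcong 𝔪 fun n => (hρ (σ * τ) n).trans ?_
    have := hc (D.R_mul n σ τ)
    simp only [c, rep_map_mul] at this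
    exact this.trans ((hρ σ n).mul (hρ τ n)).symm
  refine ⟨{ toFun := ρ, map_one' := h1, map_mul' := hmul }, ?_, ?_, ?_, ?_⟩
  · intro σ ℓ
    refine eq_of_forall_mcong 𝔪 fun n => ?_
    have := hc (D.R_T n σ ℓ)
    simp only [c, rep_map_mul] at this
    exact (((hρ σ n).mul (MCong.refl _)).trans this).trans ((MCong.refl _).mul (hρ σ n)).symm
  · intro n
    obtain ⟨L, hL, h⟩ := D.level n
    refine ⟨L, hL, fun σ hσ => (hρ σ n).trans ?_⟩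
    have := hc (h σ hσ)
    simpa only [c, rep_map_one] using this
  · intro q hq hqN A hA σ hσ
    refine eq_of_forall_mcong 𝔪 fun n => (hρ σ n).trans ?_
    have := hc (D.unram n q hq hqN A hA σ hσ)
    simpa only [c, rep_map_one] using this
  · intro ℓ hℓ hℓN A hA σ hσ
    refine eq_of_forall_mcong 𝔪 fun n => ?_
    have := hc (D.es n ℓ hℓ hℓN A hA σ hσ)
    have e : c (D.R n σ * D.R n σ + (ℓ : ℤ) • 1) = c (D.R n σ) * c (D.R n σ) + (ℓ : 𝒪) • 1 := by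
      have h3 : c ((ℓ : ℤ) • 1) = (ℓ : 𝒪) • 1 := by
        have h4 : c ((ℓ : ℤ) • 1) = (ℓ : ℤ) • (1 : Matrix (Fin D.r) (Fin D.r) 𝒪) := by
          have := map_zsmul (Int.castRingHom 𝒪).mapMatrix (ℓ : ℤ)
            (1 : Matrix (Fin D.r) (Fin D.r) ℤ)
          rwa [map_one] at this
        rw [h4, ← Int.cast_smul_eq_zsmul 𝒪, Int.cast_natCast]
      rw [← h3]
      simp only [c, ← rep_map_mul]
      exact map_add (Int.castRingHom 𝒪).mapMatrix _ _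
    rw [e] at this
    simp only [c, rep_map_mul] at this
    exact ((((hρ σ n).mul (hρ σ n)).add (MCong.refl _)).trans this).trans
      ((MCong.refl _).mul (hρ σ n)).symm

end Fermat.Agent.S30
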