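import Fermat.Agent.S30.Eigen
import Fermat.Agent.S30.Link
import Fermat.Agent.S30.Rep
import Fermat.Agent.S30.Lattice

/-!
# S30, T10b: a primitive integral eigenvector
-/

set_option autoImplicit false

namespace Fermat.Agent.S30

/-- `FreeAlgebra.lift` commutes with ring homomorphisms. -/
theorem prim_lift_map {A B : Type*} [CommRing A] [CommRing B] (f : A →+* B) (a : ℕ → A)
    (P : FreeAlgebra ℤ ℕ) :
    FreeAlgebra.lift ℤ (fun ℓ => f (a ℓ)) P = f (FreeAlgebra.lift ℤ a P) := by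
  have h : FreeAlgebra.lift ℤ (fun ℓ => f (a ℓ)) = (f.toIntAlgHom).comp (FreeAlgebra.lift ℤ a) := by
    apply FreeAlgebra.hom_ext
    funext ℓ
    simp
  rw [h]
  rfl

/-- T10b: there is a primitive integral eigenvector. -/
theorem exists_primitive_eigenvector {N p : ℕ} [NeZero N] (hp : p.Prime) (D : AdicESDatum N p)
    (S : Finset ℕ) (hpS : p ∈ S) {𝒪 : Type} [CommRing 𝒪] [IsDomain 𝒪] [ValuationRing 𝒪]
    (χ : CuspForm.heckeAlgebra N 2 (↑S : Set ℕ) →+* 𝒪) :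
    ∃ v₀ ∈ eigenModule N S (D.TO 𝒪) (eigSys χ), ∃ i₀, v₀ i₀ = 1 := by
  classical
  let K := FractionRing 𝒪
  let T' : ℕ → Matrix (Fin D.r) (Fin D.r) ℤ :=
    fun ℓ => if ℓ.Prime ∧ ¬ ℓ ∣ N ∧ ℓ ∉ (↑S : Set ℕ) then D.T ℓ else 0
  have hT' : ∀ ℓ ℓ' : ℕ, T' ℓ * T' ℓ' = T' ℓ' * T' ℓ := by
    intro ℓ ℓ'
    simp only [T']
    split_ifs
    · exact D.T_comm ℓ ℓ'
    · simp
    · simp
    · simp
  obtain ⟨v, hv0, hv⟩ := exists_eigenvector T' hT' (K := K)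
    (fun ℓ => algebraMap 𝒪 K (eigSys χ ℓ)) (by
      intro P hP
      rw [prim_lift_map, link_eigSys hp D S hpS χ P hP, map_zero])
  obtain ⟨s, w, i, hs, hwi, hw⟩ := exists_primitive (𝒪 := 𝒪) v hv0
  refine ⟨w, ?_, i, hwi⟩
  intro ℓ h1 h2 h3
  funext k
  apply IsFractionRing.injective 𝒪 K
  have h4 : T' ℓ = D.T ℓ := if_pos ⟨h1, h2, by simpa using h3⟩
  have h5 := congrFun (hv ℓ) k
  rw [h4] at h5
  simp only [Matrix.mulVec, dotProduct, Matrix.map_apply, Pi.smul_apply, smul_eq_mul,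
    AdicESDatum.TO, map_sum, map_mul, hw, eq_intCast, map_intCast] at h5 ⊢
  calc ∑ x, ((D.T ℓ k x : ℤ) : K) * (s * v x) = s * ∑ x, ((D.T ℓ k x : ℤ) : K) * v x := by
        rw [Finset.mul_sum]
        exact Finset.sum_congr rfl fun x _ => by ring
    _ = _ := by rw [h5]; ring

end Fermat.Agent.S30
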