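import Fermat.Agent.S30.Defs

/-!
# S30, T11b: how to prove the field `link` of a `S31.KummerSystem`
-/

set_option autoImplicit false

namespace Fermat.Agent.S30

/-- intertwining is inherited by all noncommutative polynomials. -/
theorem linkPeriod_intertwine {A B : Type*} [AddCommGroup A] [AddCommGroup B]
    {EA EB : Type*} [Ring EA] [Algebra ℤ EA] [Ring EB] [Algebra ℤ EB]
    (actA : EA →+* AddMonoid.End A) (actB : EB →+* AddMonoid.End B)
    (tA : ℕ → EA) (tB : ℕ → EB) (j : A →+ B)
    (hj : ∀ ℓ a, j (actA (tA ℓ) a) = actB (tB ℓ) (j a)) (P : FreeAlgebra ℤ ℕ) (a : A) :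
    j (actA (FreeAlgebra.lift ℤ tA P) a) = actB (FreeAlgebra.lift ℤ tB P) (j a) := by
  induction P using FreeAlgebra.induction generalizing a with
  | grade0 r =>
    rw [AlgHom.commutes, AlgHom.commutes, eq_intCast (algebraMap ℤ EA) r,
      eq_intCast (algebraMap ℤ EB) r, map_intCast, map_intCast]
    change j (r • a) = r • j a
    rw [map_zsmul]
  | grade1 ℓ => rw [FreeAlgebra.lift_ι_apply, FreeAlgebra.lift_ι_apply, hj]
  | mul x y hx hy =>
    rw [map_mul, map_mul, map_mul, map_mul]
    change j (actA _ (actA _ a)) = actB _ (actB _ (j a))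
    rw [hx, hy]
  | add x y hx hy =>
    rw [map_add, map_add, map_add, map_add]
    change j (actA _ a + actA _ a) = actB _ (j a) + actB _ (j a)
    rw [map_add, hx, hy]

/-- linear endomorphisms as additive endomorphisms. -/
def linkPeriod_toAdd (R M : Type*) [Semiring R] [AddCommGroup M] [Module R M] :
    Module.End R M →+* AddMonoid.End M where
  toFun f := f.toAddMonoidHom
  map_one' := rfl
  map_mul' _ _ := rfl
  map_zero' := rfl
  map_add' _ _ := rfl

/-- T11b: a convenient way to prove the field `link` of a `S31.KummerSystem`. -/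
theorem link_of_period {N : ℕ} [NeZero N] {H : Type} [AddCommGroup H] (T : ℕ → Module.End ℤ H)
    {X : Type} [AddCommGroup X] [Module ℂ X] (TX : ℕ → Module.End ℂ X)
    (ι : H →+ X) (hι : ∀ ℓ h, ι (T ℓ h) = TX ℓ (ι h))
    (J : CuspForm (CongruenceSubgroup.Gamma0 N) 2 →+ X) (hJ : Function.Injective J)
    (hJT : ∀ ℓ f, J (S31.heckeFam N ℓ f) = TX ℓ (J f))
    (hspan : ∀ f, J f ∈ Submodule.span ℂ (Set.range ι))
    (P : FreeAlgebra ℤ ℕ) (hP : FreeAlgebra.lift ℤ T P = 0) :
    FreeAlgebra.lift ℤ (S31.heckeFam N) P = 0 := by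
  have h1 : ∀ h, ι (FreeAlgebra.lift ℤ T P h) = FreeAlgebra.lift ℤ TX P (ι h) :=
    linkPeriod_intertwine (linkPeriod_toAdd ℤ H) (linkPeriod_toAdd ℂ X) T TX ι hι P
  have h2 : ∀ f, J (FreeAlgebra.lift ℤ (S31.heckeFam N) P f) = FreeAlgebra.lift ℤ TX P (J f) :=
    linkPeriod_intertwine (linkPeriod_toAdd ℂ (CuspForm (CongruenceSubgroup.Gamma0 N) 2))
      (linkPeriod_toAdd ℂ X) (S31.heckeFam N) TX J hJT P
  have h3 : ∀ x ∈ Submodule.span ℂ (Set.range ι), FreeAlgebra.lift ℤ TX P x = 0 := by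
    intro x hx
    induction hx using Submodule.span_induction with
    | mem x hx =>
      obtain ⟨h, rfl⟩ := hx
      rw [← h1, hP, LinearMap.zero_apply, map_zero]
    | zero => rw [map_zero]
    | add x y _ _ hx hy => rw [map_add, hx, hy, add_zero]
    | smul c x _ hx => rw [map_smul, hx, smul_zero]
  refine LinearMap.ext fun f => ?_
  apply hJ
  rw [h2, h3 _ (hspan f), LinearMap.zero_apply, map_zero]

end Fermat.Agent.S30
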