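import Fermat.Agent.S30.GeomAsm

/-!
# S30: the geometric input (supplied by the chapters GES + NV for `m = p ^ n`)
-/

set_option autoImplicit false

namespace Fermat.Agent.S30

/-- GEOM -/
theorem exists_isTate (N p : ℕ) [NeZero N] (hp : p.Prime) :
    ∃ 𝒦 : S31.KummerSystem N p, IsTate 𝒦 :=
  have : NeZero p := ⟨hp.ne_zero⟩
  ⟨kummerSys N p, isTate_kummerSys N p⟩

end Fermat.Agent.S30
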