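import Fermat.Agent.S30.Cong

/-!
# S30, T10a: from matrices to `GaloisRepAdic`
-/

set_option autoImplicit false

open Polynomial IsLocalRing

namespace Fermat.Agent.S30

/-- T10a: a continuous matrix representation gives a `GaloisRepAdic`. -/
theorem exists_galoisRepAdic {𝒪 : Type} [CommRing 𝒪] [IsLocalRing 𝒪]
    (M : GQ →* Matrix (Fin 2) (Fin 2) 𝒪)
    (hcont : ∀ n, ∃ L : IntermediateField ℚ (AlgebraicClosure ℚ), FiniteDimensional ℚ L ∧
      ∀ σ : GQ, (∀ x ∈ L, σ x = x) → MCong (maximalIdeal 𝒪 ^ n) (M σ) 1) :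
    ∃ ρ : GaloisRepAdic 𝒪,
      (∀ σ, LinearMap.charpoly (ρ.ρ σ) = X ^ 2 - C (M σ).trace * X + C (M σ).det) ∧
      (∀ σ, M σ = 1 → ρ.ρ σ = 1) := by
  let r : GQ →* Module.End 𝒪 (Fin 2 → 𝒪) :=
    (Matrix.toLinAlgEquiv' : Matrix (Fin 2) (Fin 2) 𝒪 ≃ₐ[𝒪] _).toAlgHom.toRingHom.toMonoidHom.comp M
  have hr : ∀ σ, r σ = Matrix.toLin' (M σ) := fun σ => rfl
  refine ⟨{ V := Fin 2 → 𝒪
            finrank_eq := by simp
            ρ := r
            isAdicContinuous := ?_ }, ?_, ?_⟩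
  · intro n
    obtain ⟨L, hL, h⟩ := hcont n
    refine ⟨L, hL, fun σ hσ v => ?_⟩
    have h1 := h σ hσ
    have h2 : ∀ k, (r σ v - v) k ∈ maximalIdeal 𝒪 ^ n := by
      intro k
      have := MCong.mulVec h1 v k
      rw [Matrix.one_mulVec] at this
      rw [hr, Pi.sub_apply, Matrix.toLin'_apply]
      exact this
    have h3 : r σ v - v = ∑ k, (r σ v - v) k • (Pi.single k (1 : 𝒪) : Fin 2 → 𝒪) := by
      funext j
      simp [Finset.sum_apply, Pi.single_apply]
    rw [h3]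
    exact Submodule.sum_mem _ fun k _ => Submodule.smul_mem_smul (h2 k) Submodule.mem_top
  · intro σ
    show LinearMap.charpoly (r σ) = _
    rw [hr, Matrix.charpoly_toLin', Matrix.charpoly_fin_two]
  · intro σ hσ
    show r σ = 1
    rw [hr, hσ, Matrix.toLin'_one]
    rfl

end Fermat.Agent.S30
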