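import Fermat.Agent.S30.Defs
import Fermat.Agent.S29.Cyclo

/-!
# S30, T2a-d: the Galois action on roots of unity
(see `Fermat/Agent/S29/Cyclo.lean` for the same lemmas for `μ_p`; its helper lemmas `rho3_*`,
`Fermat.Agent.S54.*`, `Fermat.Agent.S05.sub_mem_nonunits_of_mem_inertia` can be imported.)
-/

set_option autoImplicit false

namespace Fermat.Agent.S30

local notation "Lb" => AlgebraicClosure ℚ

theorem roots_exists_prim (m : ℕ) (hm : m ≠ 0) : ∃ ζ : Lb, IsPrimitiveRoot ζ m := by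
  haveI : NeZero m := ⟨hm⟩
  haveI : NeZero ((m : ℕ) : Lb) := ⟨by exact_mod_cast hm⟩
  exact HasEnoughRootsOfUnity.exists_primitiveRoot Lb m

/-- T2a: exponents of the Galois action on `μ_{p^n}`. -/
theorem exists_cycExp (p : ℕ) [Fact p.Prime] :
    ∃ e : ℕ → GQ → ℕ, ∀ (n : ℕ) (σ : GQ) (ζ : AlgebraicClosure ℚ), ζ ^ p ^ n = 1 →
      σ ζ = ζ ^ e n σ := by
  have hp : p.Prime := Fact.out
  have key : ∀ (n : ℕ) (σ : GQ), ∃ e : ℕ, ∀ ζ : Lb, ζ ^ p ^ n = 1 → σ ζ = ζ ^ e := by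
    intro n σ
    have hpn : 0 < p ^ n := pow_pos hp.pos n
    obtain ⟨z, hz⟩ := roots_exists_prim (p ^ n) hpn.ne'
    have h1 : (σ z) ^ p ^ n = 1 := by rw [← map_pow, hz.pow_eq_one, map_one]
    obtain ⟨e, -, he⟩ := hz.eq_pow_of_pow_eq_one h1
    refine ⟨e, fun ζ hζ => ?_⟩
    obtain ⟨i, -, hi⟩ := hz.eq_pow_of_pow_eq_one hζ
    rw [← hi, map_pow, ← he, ← pow_mul, ← pow_mul, mul_comm]
  choose e he using key
  exact ⟨e, he⟩

/-- a root of unity of order prime to `ℓ` congruent to `1` modulo a place over `ℓ` is `1`. -/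
theorem roots_eq_one_of_sub_one_mem {m : ℕ} {ℓ : ℕ} (hℓ : ℓ.Prime) (hm : ¬ ℓ ∣ m)
    (A : ValuationSubring Lb) (hA : A.LiesOverPrime ℓ) {μ : Lb} (hμ : μ ^ m = 1)
    (h : μ - 1 ∈ A.nonunits) : μ = 1 := by
  by_contra hne
  have hm0 : 0 < m := Nat.pos_of_ne_zero (by rintro rfl; exact hm (dvd_zero _))
  set k := orderOf μ with hk
  have hkm : k ∣ m := orderOf_dvd_of_pow_eq_one hμ
  have hprim : IsPrimitiveRoot μ k := IsPrimitiveRoot.orderOf μ
  have hk0 : 0 < k := Nat.pos_of_dvd_of_pos hkm hm0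
  have hk1 : 1 < k := by
    rcases Nat.lt_or_ge 1 k with h1 | h1
    · exact h1
    · exfalso
      have : k = 1 := by omega
      exact hne (orderOf_eq_one_iff.1 this)
  have hμA : μ ∈ A := Fermat.Agent.S29.rho3_mem_of_pow_eq_one A hm0 hμ
  have hgeom : ∑ i ∈ Finset.range k, μ ^ i = 0 := hprim.geom_sum_eq_zero hk1
  have hsum : ∀ n : ℕ, ∑ i ∈ Finset.range n, (μ ^ i - 1) ∈ A.nonunits := by
    intro n
    induction n with
    | zero => simp [Fermat.Agent.S29.rho3_zero_mem_nonunits A]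
    | succ n ih =>
      rw [Finset.sum_range_succ]
      exact Fermat.Agent.S54.nonunits_add A ih (Fermat.Agent.S29.rho3_pow_sub_one_mem A hμA h n)
  have h1 := hsum k
  rw [Finset.sum_sub_distrib, hgeom] at h1
  simp only [Finset.sum_const, Finset.card_range, nsmul_eq_mul, mul_one, zero_sub] at h1
  have h2 : ((k : ℤ) : Lb) ∈ A.nonunits := by
    have := Fermat.Agent.S54.nonunits_neg A h1
    simpa using this
  have : Algebra.IsAlgebraic ℚ Lb := AlgebraicClosure.isAlgebraic ℚ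
  refine Fermat.Agent.S54.intCast_not_mem_nonunits A hℓ hA (k : ℤ) ?_ h2
  intro hdvd
  have : ℓ ∣ k := by exact_mod_cast hdvd
  exact hm (this.trans hkm)

/-- two roots of unity of order prime to `ℓ` congruent modulo a place over `ℓ` are equal. -/
theorem roots_eq_of_sub_mem {m : ℕ} {ℓ : ℕ} (hℓ : ℓ.Prime) (hm : ¬ ℓ ∣ m)
    (A : ValuationSubring Lb) (hA : A.LiesOverPrime ℓ) {μ ν : Lb} (hμ : μ ^ m = 1)
    (hν : ν ^ m = 1) (h : μ - ν ∈ A.nonunits) : μ = ν := by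
  have hm0 : 0 < m := Nat.pos_of_ne_zero (by rintro rfl; exact hm (dvd_zero _))
  have hν0 : ν ≠ 0 := by
    intro h0
    rw [h0, zero_pow hm0.ne'] at hν
    exact zero_ne_one hν
  have hinv : (ν⁻¹) ^ m = 1 := by rw [inv_pow, hν, inv_one]
  have h1 : μ * ν⁻¹ - 1 ∈ A.nonunits := by
    have e : μ * ν⁻¹ - 1 = (μ - ν) * ν⁻¹ := by
      rw [sub_mul, mul_inv_cancel₀ hν0]
    rw [e]
    exact Fermat.Agent.S54.nonunits_mul_mem A h
      (Fermat.Agent.S29.rho3_mem_of_pow_eq_one A hm0 hinv)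
  have h2 := roots_eq_one_of_sub_one_mem hℓ hm A hA (by rw [mul_pow, hμ, hinv, one_mul]) h1
  field_simp at h2
  exact h2

/-- T2b: a Frobenius lift at `ℓ` raises roots of unity of order prime to `ℓ` to the `ℓ`-th
power. -/
theorem frobenius_rootOfUnity {ℓ : ℕ} (hℓ : ℓ.Prime) (A : ValuationSubring (AlgebraicClosure ℚ))
    (hA : A.LiesOverPrime ℓ) (σ : GQ) (hσ : A.IsFrobeniusAt σ ℓ) (m : ℕ) (hm : ¬ ℓ ∣ m)
    (ζ : AlgebraicClosure ℚ) (hζ : ζ ^ m = 1) : σ ζ = ζ ^ ℓ := by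
  have hm0 : 0 < m := Nat.pos_of_ne_zero (by rintro rfl; exact hm (dvd_zero _))
  apply roots_eq_of_sub_mem hℓ hm A hA
  · rw [← map_pow, hζ, map_one]
  · rw [← pow_mul, mul_comm, pow_mul, hζ, one_pow]
  · exact Fermat.Agent.S29.rho3_sub_pow_mem_nonunits hσ
      (Fermat.Agent.S29.rho3_mem_of_pow_eq_one A hm0 hζ)

/-- T2c: inertia at `ℓ` fixes the roots of unity of order prime to `ℓ`. -/
theorem inertia_rootOfUnity {ℓ : ℕ} (hℓ : ℓ.Prime) (A : ValuationSubring (AlgebraicClosure ℚ))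
    (hA : A.LiesOverPrime ℓ) (σ : GQ) (hσ : σ ∈ A.inertiaSubgroupIn ℚ) (m : ℕ) (hm : ¬ ℓ ∣ m)
    (ζ : AlgebraicClosure ℚ) (hζ : ζ ^ m = 1) : σ ζ = ζ := by
  have hm0 : 0 < m := Nat.pos_of_ne_zero (by rintro rfl; exact hm (dvd_zero _))
  apply roots_eq_of_sub_mem hℓ hm A hA
  · rw [← map_pow, hζ, map_one]
  · exact hζ
  · exact Fermat.Agent.S05.sub_mem_nonunits_of_mem_inertia hσ
      (Fermat.Agent.S29.rho3_mem_of_pow_eq_one A hm0 hζ)

/-- T2d: complex conjugation inverts roots of unity. -/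
theorem conj_rootOfUnity (m : ℕ) (hm : m ≠ 0) (ζ : AlgebraicClosure ℚ) (hζ : ζ ^ m = 1) :
    complexConjugation ζ * ζ = 1 := by
  apply complexEmbedding.toRingHom.injective
  show complexEmbedding (complexConjugation ζ * ζ) = complexEmbedding 1
  rw [map_mul, complexEmbedding_complexConjugation, map_one, Complex.conj_mul']
  have h1 : (complexEmbedding ζ) ^ m = 1 := by rw [← map_pow, hζ, map_one]
  rw [Complex.norm_eq_one_of_pow_eq_one h1 hm]
  simp

end Fermat.Agent.S30
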