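import Fermat.Agent.S30.Cong
import Fermat.Agent.S30.Roots

/-!
# S30, T2: the `p`-adic cyclotomic character with values in `𝒪`
-/

set_option autoImplicit false

namespace Fermat.Agent.S30

open IsLocalRing

/-- the properties of the cyclotomic character that we use. -/
structure IsCyclo (p : ℕ) {𝒪 : Type} [CommRing 𝒪] [IsLocalRing 𝒪] (χ : GQ →* 𝒪) : Prop where
  frob : ∀ ℓ : ℕ, ℓ.Prime → ℓ ≠ p →
    ∀ A : ValuationSubring (AlgebraicClosure ℚ), A.LiesOverPrime ℓ →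
      ∀ σ : GQ, A.IsFrobeniusAt σ ℓ → χ σ = (ℓ : 𝒪)
  inertia : ∀ q : ℕ, q.Prime → q ≠ p →
    ∀ A : ValuationSubring (AlgebraicClosure ℚ), A.LiesOverPrime q →
      ∀ σ ∈ A.inertiaSubgroupIn ℚ, χ σ = 1
  conj : χ complexConjugation = -1
  level : ∀ n, ∃ L : IntermediateField ℚ (AlgebraicClosure ℚ), FiniteDimensional ℚ L ∧
    ∀ σ : GQ, (∀ x ∈ L, σ x = x) → χ σ - 1 ∈ maximalIdeal 𝒪 ^ n

theorem cyclo_cast_sub_mem {𝒪 : Type*} [CommRing 𝒪] {I : Ideal 𝒪} {p : ℕ} (hp : (p : 𝒪) ∈ I)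
    {n a b : ℕ} (h : a ≡ b [MOD p ^ n]) : (a : 𝒪) - (b : 𝒪) ∈ I ^ n := by
  have h1 : ((p ^ n : ℕ) : ℤ) ∣ (a : ℤ) - (b : ℤ) := (Nat.modEq_iff_dvd.1 h.symm)
  obtain ⟨c, hc⟩ := h1
  have h2 : (a : 𝒪) - (b : 𝒪) = (p : 𝒪) ^ n * (c : 𝒪) := by
    have := congrArg (Int.cast : ℤ → 𝒪) hc
    push_cast at this
    exact this
  rw [h2]
  exact Ideal.mul_mem_right _ _ (Ideal.pow_mem_pow hp n)

/-- T2 -/
theorem exists_cyclo (p : ℕ) [Fact p.Prime] (𝒪 : Type) [CommRing 𝒪] [IsLocalRing 𝒪]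
    [IsAdicComplete (maximalIdeal 𝒪) 𝒪] (hp : (p : 𝒪) ∈ maximalIdeal 𝒪) :
    ∃ χ : GQ →* 𝒪, IsCyclo p χ := by
  have hpp : p.Prime := Fact.out
  obtain ⟨e, he⟩ := exists_cycExp p
  have hpn : ∀ n, p ^ n ≠ 0 := fun n => (pow_pos hpp.pos n).ne'
  choose z hz using fun n => roots_exists_prim (p ^ n) (hpn n)
  -- the basic principle
  have hmod : ∀ (n : ℕ) (a b : ℕ), z n ^ a = z n ^ b → (a : 𝒪) - (b : 𝒪) ∈ maximalIdeal 𝒪 ^ n := by
    intro n a b hab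
    apply cyclo_cast_sub_mem hp
    have hfin : IsOfFinOrder (z n) :=
      isOfFinOrder_iff_pow_eq_one.2 ⟨p ^ n, pow_pos hpp.pos n, (hz n).pow_eq_one⟩
    have := hfin.pow_eq_pow_iff_modEq.1 hab
    rwa [← (hz n).eq_orderOf] at this
  have hact : ∀ n σ, σ (z n) = z n ^ e n σ := fun n σ => he n σ (z n) (hz n).pow_eq_one
  have hsucc : ∀ σ n, ((e (n + 1) σ : ℕ) : 𝒪) - (e n σ : 𝒪) ∈ maximalIdeal 𝒪 ^ n := by
    intro σ n
    apply hmod
    rw [← hact n σ]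
    refine (he (n + 1) σ (z n) ?_).symm
    rw [pow_succ, pow_mul, (hz n).pow_eq_one, one_pow]
  choose χ hχ using fun σ => exists_lim (maximalIdeal 𝒪) (fun n => ((e n σ : ℕ) : 𝒪)) (hsucc σ)
  have huniq : ∀ (σ : GQ) (c : 𝒪), (∀ n, ((e n σ : ℕ) : 𝒪) - c ∈ maximalIdeal 𝒪 ^ n) → χ σ = c := by
    intro σ c hc
    apply eq_of_forall_sub_mem (maximalIdeal 𝒪)
    intro n
    rw [← sub_add_sub_cancel (χ σ) ((e n σ : ℕ) : 𝒪) c]
    exact Ideal.add_mem _ (hχ σ n) (hc n)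
  have hone : χ 1 = 1 := by
    apply huniq
    intro n
    have := hmod n (e n 1) 1 (by rw [← hact n 1, pow_one]; rfl)
    simpa using this
  have hmul : ∀ σ τ, χ (σ * τ) = χ σ * χ τ := by
    intro σ τ
    apply huniq
    intro n
    have h1 := hmod n (e n (σ * τ)) (e n σ * e n τ) (by
      rw [← hact n (σ * τ), AlgEquiv.mul_apply, hact n τ, map_pow, hact n σ, ← pow_mul])
    rw [Nat.cast_mul] at h1
    have h2 : ((e n σ : ℕ) : 𝒪) * (e n τ : 𝒪) - χ σ * χ τ =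
        -((χ σ - (e n σ : 𝒪)) * (e n τ : 𝒪) + χ σ * (χ τ - (e n τ : 𝒪))) := by ring
    rw [← sub_add_sub_cancel _ (((e n σ : ℕ) : 𝒪) * (e n τ : 𝒪)) _, h2]
    refine Ideal.add_mem _ h1 (neg_mem (Ideal.add_mem _ ?_ ?_))
    · exact Ideal.mul_mem_right _ _ (hχ σ n)
    · exact Ideal.mul_mem_left _ _ (hχ τ n)
  refine ⟨{ toFun := χ, map_one' := hone, map_mul' := hmul }, ?_, ?_, ?_, ?_⟩
  · intro ℓ hℓ hℓp A hA σ hσ
    show χ σ = (ℓ : 𝒪)
    apply huniq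
    intro n
    apply hmod
    rw [← hact n σ]
    refine frobenius_rootOfUnity hℓ A hA σ hσ (p ^ n) ?_ (z n) (hz n).pow_eq_one
    intro hd
    exact hℓp ((Nat.prime_dvd_prime_iff_eq hℓ hpp).1 (hℓ.dvd_of_dvd_pow hd))
  · intro q hq hqp A hA σ hσ
    show χ σ = 1
    apply huniq
    intro n
    have := hmod n (e n σ) 1 (by
      rw [← hact n σ, pow_one]
      refine inertia_rootOfUnity hq A hA σ hσ (p ^ n) ?_ (z n) (hz n).pow_eq_one
      intro hd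
      exact hqp ((Nat.prime_dvd_prime_iff_eq hq hpp).1 (hq.dvd_of_dvd_pow hd)))
    simpa using this
  · show χ complexConjugation = -1
    apply huniq
    intro n
    have := hmod n (e n complexConjugation + 1) 0 (by
      rw [pow_add, ← hact n complexConjugation, pow_one, pow_zero]
      exact conj_rootOfUnity (p ^ n) (hpn n) (z n) (hz n).pow_eq_one)
    simpa using this
  · intro n
    have hint : IsIntegral ℚ (z n) := (AlgebraicClosure.isAlgebraic ℚ).isIntegral.isIntegral (z n)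
    refine ⟨IntermediateField.adjoin ℚ {z n}, IntermediateField.adjoin.finiteDimensional hint, ?_⟩
    intro σ hσ
    show χ σ - 1 ∈ maximalIdeal 𝒪 ^ n
    have h1 := hmod n (e n σ) 1 (by
      rw [← hact n σ, pow_one]
      exact hσ _ (IntermediateField.mem_adjoin_simple_self ℚ (z n)))
    rw [Nat.cast_one] at h1
    rw [← sub_add_sub_cancel (χ σ) ((e n σ : ℕ) : 𝒪) 1]
    exact Ideal.add_mem _ (hχ σ n) h1

end Fermat.Agent.S30
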