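import Mathlib

/-!
# S30, T5: powers of a root of `X² - T X + l`
-/

set_option autoImplicit false

namespace Fermat.Agent.S30

/-- Dickson polynomials evaluated in a (not necessarily commutative) ring:
`D₀ = 2`, `D₁ = T`, `D_{b+2} = T D_{b+1} - l D_b`. -/
def dk {A : Type*} [Ring A] (T : A) (l : ℤ) : ℕ → A
  | 0 => 2
  | 1 => T
  | (b + 2) => T * dk T l (b + 1) - l • dk T l b

theorem dickson_dk_zero {A : Type*} [Ring A] (T : A) (l : ℤ) : dk T l 0 = 2 := rfl

theorem dickson_dk_one {A : Type*} [Ring A] (T : A) (l : ℤ) : dk T l 1 = T := rfl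

theorem dickson_dk_add_two {A : Type*} [Ring A] (T : A) (l : ℤ) (b : ℕ) :
    dk T l (b + 2) = T * dk T l (b + 1) - l • dk T l b := rfl

/-- `D_b = s ^ b + (T - s) ^ b`. -/
theorem dickson_dk_eq {A : Type*} [Ring A] (s T : A) (l : ℤ) (hsT : s * T = T * s)
    (h : s * s + l • 1 = T * s) (b : ℕ) : dk T l b = s ^ b + (T - s) ^ b := by
  have h1 : s * (T - s) = l • (1 : A) := by
    rw [mul_sub, hsT, ← h]; abel
  have h2 : (T - s) * s = l • (1 : A) := by
    rw [sub_mul, ← h]; abel
  induction b using Nat.twoStepInduction with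
  | zero => simp [dickson_dk_zero]; norm_num
  | one => simp [dickson_dk_one]
  | more b ih1 ih2 =>
    rw [dickson_dk_add_two, ih1, ih2]
    have e1 : T = s + (T - s) := by abel
    have e2 : s * (T - s) ^ (b + 1) = l • (T - s) ^ b := by
      rw [pow_succ', ← mul_assoc, h1, smul_mul_assoc, one_mul]
    have e3 : (T - s) * s ^ (b + 1) = l • s ^ b := by
      rw [pow_succ', ← mul_assoc, h2, smul_mul_assoc, one_mul]
    calc T * (s ^ (b + 1) + (T - s) ^ (b + 1)) - l • (s ^ b + (T - s) ^ b)
        = (s + (T - s)) * (s ^ (b + 1) + (T - s) ^ (b + 1))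
            - l • (s ^ b + (T - s) ^ b) := by rw [← e1]
      _ = s * s ^ (b + 1) + (T - s) * (T - s) ^ (b + 1) := by
          rw [add_mul, mul_add, mul_add, e2, e3, smul_add]; abel
      _ = s ^ (b + 2) + (T - s) ^ (b + 2) := by
          rw [← pow_succ', ← pow_succ']

/-- T5a -/
theorem dickson_relation {A : Type*} [Ring A] (s T : A) (l : ℤ) (hsT : s * T = T * s)
    (h : s * s + l • 1 = T * s) (b : ℕ) :
    s ^ b * s ^ b + (l ^ b) • 1 = dk T l b * s ^ b := by
  have h2 : (T - s) * s = l • (1 : A) := by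
    rw [sub_mul, ← h]; abel
  have hc' : Commute (T - s) s := by
    have : Commute T s := hsT.symm
    exact this.sub_left (Commute.refl s)
  have h3 : (l • (1 : A)) ^ b = (l ^ b) • (1 : A) := by
    rw [smul_pow, one_pow]
  rw [dickson_dk_eq s T l hsT h b, add_mul, ← hc'.mul_pow, h2, h3]

/-- T5b -/
theorem map_dk {A B : Type*} [Ring A] [Ring B] (f : A →+* B) (T : A) (l : ℤ) (b : ℕ) :
    f (dk T l b) = dk (f T) l b := by
  induction b using Nat.twoStepInduction with
  | zero => rw [dickson_dk_zero, dickson_dk_zero]; exact map_ofNat f 2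
  | one => simp [dickson_dk_one]
  | more b h1 h2 => simp [dickson_dk_add_two, h1, h2]

/-- T5c -/
theorem dk_mulVec {R : Type*} [CommRing R] {r : ℕ} (T : Matrix (Fin r) (Fin r) R) (l : ℤ) (a : R)
    (v : Fin r → R) (h : T.mulVec v = a • v) (b : ℕ) :
    (dk T l b).mulVec v = dk a l b • v := by
  induction b using Nat.twoStepInduction with
  | zero =>
    rw [dickson_dk_zero, dickson_dk_zero, ← one_add_one_eq_two, ← one_add_one_eq_two,
      Matrix.add_mulVec, Matrix.one_mulVec, add_smul, one_smul]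
  | one => rw [dickson_dk_one, dickson_dk_one, h]
  | more b h1 h2 =>
    rw [dickson_dk_add_two, dickson_dk_add_two, Matrix.sub_mulVec, ← Matrix.mulVec_mulVec, h2,
      Matrix.mulVec_smul, h, Matrix.smul_mulVec, h1, sub_smul, smul_smul, mul_comm, smul_assoc]

end Fermat.Agent.S30
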