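import Fermat.Agent.S30.Rep
import Fermat.Agent.S30.Cyclo
import Fermat.Agent.S30.Dickson
import Fermat.Agent.S29.FDMain

/-!
# S30, T6a: every `g ∈ G_ℚ` satisfies a quadratic relation on the eigenvectors, modulo `𝔪 ^ n`
-/

set_option autoImplicit false

namespace Fermat.Agent.S30

open IsLocalRing

/-- T6a: approximate relation at every level (Frobenius density + Dickson). -/
theorem approx_relation {N p : ℕ} [Fact p.Prime] {𝒪 : Type} [CommRing 𝒪] [IsLocalRing 𝒪] {r : ℕ}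
    {T : ℕ → Matrix (Fin r) (Fin r) 𝒪} {ρ : GQ →* Matrix (Fin r) (Fin r) 𝒪}
    (hρ : IsAdicRep N p T ρ) {χ : GQ →* 𝒪} (hχ : IsCyclo p χ) (S : Finset ℕ) (hpS : p ∈ S)
    (hN : N ≠ 0) (a : ℕ → 𝒪) (g : GQ) (n : ℕ) :
    ∃ t : 𝒪, ∀ v ∈ eigenModule N S T a, ∀ i,
      ((ρ g).mulVec ((ρ g).mulVec v) - t • (ρ g).mulVec v + χ g • v) i ∈ maximalIdeal 𝒪 ^ n := by
  obtain ⟨L₁, hL₁fd, hL₁⟩ := hρ.level n
  obtain ⟨L₂, hL₂fd, hL₂⟩ := hχ.level n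
  have hfd : FiniteDimensional ℚ (L₁ ⊔ L₂ : IntermediateField ℚ (AlgebraicClosure ℚ)) :=
    IntermediateField.finiteDimensional_sup L₁ L₂
  obtain ⟨ℓ, hℓ, hℓS, A, hA, σ, hσ, b, hb⟩ :=
    Fermat.Agent.S29.frobenius_density_lite (L₁ ⊔ L₂) (S ∪ N.primeFactors) g
  rw [Finset.mem_union, not_or] at hℓS
  have hℓN : ¬ ℓ ∣ N := fun h => hℓS.2 (Nat.mem_primeFactors.mpr ⟨hℓ, h, hN⟩)
  have hℓp : ℓ ≠ p := fun h => hℓS.1 (h ▸ hpS)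
  have hℓNp : ¬ ℓ ∣ N * p := by
    intro h
    rcases hℓ.dvd_mul.mp h with h | h
    · exact hℓN h
    · exact hℓp ((Nat.prime_dvd_prime_iff_eq hℓ (Fact.out : p.Prime)).mp h)
  -- `τ = g⁻¹ σ ^ b` fixes the level
  have hτ : ∀ x ∈ (L₁ ⊔ L₂ : IntermediateField ℚ (AlgebraicClosure ℚ)), (g⁻¹ * σ ^ b) x = x := by
    intro x hx
    rw [AlgEquiv.mul_apply, hb x hx]
    exact g.symm_apply_apply x
  have hτ₁ := hL₁ (g⁻¹ * σ ^ b) fun x hx => hτ x ((le_sup_left : L₁ ≤ L₁ ⊔ L₂) hx)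
  have hτ₂ := hL₂ (g⁻¹ * σ ^ b) fun x hx => hτ x ((le_sup_right : L₂ ≤ L₁ ⊔ L₂) hx)
  have hdec : σ ^ b = g * (g⁻¹ * σ ^ b) := by rw [mul_inv_cancel_left]
  have hP : MCong (maximalIdeal 𝒪 ^ n) (ρ g) (ρ σ ^ b) := by
    have h1 : ρ σ ^ b = ρ g * ρ (g⁻¹ * σ ^ b) := by rw [← map_pow, ← map_mul, ← hdec]
    rw [h1]
    have h2 := (MCong.refl (I := maximalIdeal 𝒪 ^ n) (ρ g)).mul hτ₁
    rw [mul_one] at h2
    exact h2.symm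
  have hχ' : χ g - (ℓ : 𝒪) ^ b ∈ maximalIdeal 𝒪 ^ n := by
    have h1 : (ℓ : 𝒪) ^ b = χ g * χ (g⁻¹ * σ ^ b) := by
      rw [← hχ.frob ℓ hℓ hℓp A hA σ hσ, ← map_pow, ← map_mul, ← hdec]
    rw [h1]
    have h2 : χ g - χ g * χ (g⁻¹ * σ ^ b) = -(χ g * (χ (g⁻¹ * σ ^ b) - 1)) := by ring
    rw [h2]
    exact neg_mem (Ideal.mul_mem_left _ _ hτ₂)
  -- the Dickson relation
  have hes : ρ σ * ρ σ + (ℓ : ℤ) • (1 : Matrix (Fin r) (Fin r) 𝒪) = T ℓ * ρ σ := by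
    rw [← hρ.es ℓ hℓ hℓNp A hA σ hσ, ← Int.cast_smul_eq_zsmul 𝒪, Int.cast_natCast]
  have hdk := dickson_relation (ρ σ) (T ℓ) (ℓ : ℤ) (hρ.comm σ ℓ) hes b
  refine ⟨dk (a ℓ) (ℓ : ℤ) b, fun v hv i => ?_⟩
  have hcomm : ∀ k : ℕ, T ℓ * ρ σ ^ k = ρ σ ^ k * T ℓ := by
    intro k
    exact ((Commute.pow_left (show Commute (ρ σ) (T ℓ) from hρ.comm σ ℓ) k).eq).symm
  have hw : (T ℓ).mulVec ((ρ σ ^ b).mulVec v) = a ℓ • (ρ σ ^ b).mulVec v := by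
    rw [Matrix.mulVec_mulVec, hcomm b, ← Matrix.mulVec_mulVec, hv ℓ hℓ hℓN hℓS.1,
      Matrix.mulVec_smul]
  have hrel : (ρ σ ^ b).mulVec ((ρ σ ^ b).mulVec v) + (ℓ : 𝒪) ^ b • v
      = dk (a ℓ) (ℓ : ℤ) b • (ρ σ ^ b).mulVec v := by
    rw [← dk_mulVec (T ℓ) (ℓ : ℤ) (a ℓ) _ hw b, Matrix.mulVec_mulVec, Matrix.mulVec_mulVec, ← hdk,
      Matrix.add_mulVec]
    congr 1
    rw [← Int.cast_smul_eq_zsmul 𝒪, Matrix.smul_mulVec, Matrix.one_mulVec]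
    push_cast
    rfl
  have hreli := congrFun hrel i
  have h1 := (hP.mul hP).mulVec v i
  have h2 := hP.mulVec v i
  rw [← Matrix.mulVec_mulVec, ← Matrix.mulVec_mulVec] at h1
  simp only [Pi.add_apply, Pi.sub_apply, Pi.smul_apply, smul_eq_mul] at hreli ⊢
  have key : (ρ g).mulVec ((ρ g).mulVec v) i - dk (a ℓ) (ℓ : ℤ) b * (ρ g).mulVec v i + χ g * v i
      = ((ρ g).mulVec ((ρ g).mulVec v) i - (ρ σ ^ b).mulVec ((ρ σ ^ b).mulVec v) i)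
        - dk (a ℓ) (ℓ : ℤ) b * ((ρ g).mulVec v i - (ρ σ ^ b).mulVec v i)
        + (χ g - (ℓ : 𝒪) ^ b) * v i := by
    linear_combination hreli
  rw [key]
  exact Ideal.add_mem _ (Ideal.sub_mem _ h1 (Ideal.mul_mem_left _ _ h2))
    (Ideal.mul_mem_right _ _ hχ')

end Fermat.Agent.S30
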