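import Fermat.Agent.S30.Cong

/-!
# S30, T6b: passage to the limit in the quadratic relation
-/

set_option autoImplicit false

namespace Fermat.Agent.S30

open IsLocalRing

/-- T6b: passage to the limit. -/
theorem exact_relation {𝒪 : Type} [CommRing 𝒪] [IsLocalRing 𝒪]
    [IsHausdorff (maximalIdeal 𝒪) 𝒪] {G : Type} [Group G] {r : ℕ}
    (ρ : G →* Matrix (Fin r) (Fin r) 𝒪) (d : G →* 𝒪) (W : Submodule 𝒪 (Fin r → 𝒪))
    (v₀ : Fin r → 𝒪) (hv₀ : v₀ ∈ W) (i₀ : Fin r) (hi₀ : v₀ i₀ = 1)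
    (happ : ∀ (g : G) (n : ℕ), ∃ t : 𝒪, ∀ v ∈ W, ∀ i,
      ((ρ g).mulVec ((ρ g).mulVec v) - t • (ρ g).mulVec v + d g • v) i ∈ maximalIdeal 𝒪 ^ n)
    (g : G) :
    ∃ t : 𝒪, ∀ v ∈ W, (ρ g).mulVec ((ρ g).mulVec v) - t • (ρ g).mulVec v + d g • v = 0 := by
  -- a unit coordinate of `ρ g v₀`
  obtain ⟨k, hk⟩ : ∃ k, IsUnit ((ρ g).mulVec v₀ k) := by
    by_contra hcon
    push Not at hcon
    have hmem : ∀ k, (ρ g).mulVec v₀ k ∈ maximalIdeal 𝒪 := fun k =>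
      (mem_maximalIdeal _).mpr (hcon k)
    have hinv : (ρ g⁻¹).mulVec ((ρ g).mulVec v₀) = v₀ := by
      rw [Matrix.mulVec_mulVec, ← map_mul, inv_mul_cancel, map_one, Matrix.one_mulVec]
    have h1 : v₀ i₀ ∈ maximalIdeal 𝒪 := by
      rw [← hinv, Matrix.mulVec, dotProduct]
      exact Ideal.sum_mem _ fun k _ => Ideal.mul_mem_left _ _ (hmem k)
    rw [hi₀] at h1
    exact (mem_maximalIdeal _).mp h1 isUnit_one
  obtain ⟨c, hc⟩ := hk.exists_left_inv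
  refine ⟨c * ((ρ g).mulVec ((ρ g).mulVec v₀) k + d g * v₀ k), fun v hv => ?_⟩
  funext i
  refine eq_of_forall_sub_mem (maximalIdeal 𝒪) fun n => ?_
  obtain ⟨t, ht⟩ := happ g n
  have h0 := ht v₀ hv₀ k
  have h1 := ht v hv i
  simp only [Pi.add_apply, Pi.sub_apply, Pi.smul_apply, smul_eq_mul, Pi.zero_apply,
    sub_zero] at h0 h1 ⊢
  have key : (ρ g).mulVec ((ρ g).mulVec v) i
      - c * ((ρ g).mulVec ((ρ g).mulVec v₀) k + d g * v₀ k) * (ρ g).mulVec v i + d g * v i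
      = ((ρ g).mulVec ((ρ g).mulVec v) i - t * (ρ g).mulVec v i + d g * v i)
        - c * (ρ g).mulVec v i *
          ((ρ g).mulVec ((ρ g).mulVec v₀) k - t * (ρ g).mulVec v₀ k + d g * v₀ k) := by
    linear_combination (-(t * (ρ g).mulVec v i)) * hc
  rw [key]
  exact Ideal.sub_mem _ h1 (Ideal.mul_mem_left _ _ h0)

end Fermat.Agent.S30
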