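import Fermat.Agent.S30.Cong

/-!
# S30, T9: the line case of the extraction
-/

set_option autoImplicit false

namespace Fermat.Agent.S30

/-- T9 (line case): a stable line `𝒪 x` gives `ψ ⊕ d ψ⁻¹`. -/
theorem extract_line {𝒪 : Type*} [CommRing 𝒪] [IsDomain 𝒪] {G : Type*} [Group G] {r : ℕ}
    (ρ : G →* Matrix (Fin r) (Fin r) 𝒪) (t : G → 𝒪) (d : G →* 𝒪)
    (x : Fin r → 𝒪) (i : Fin r) (hxi : x i = 1)
    (hx : ∀ g, ∃ ψ : 𝒪, (ρ g).mulVec x = ψ • x)
    (hq : ∀ g, (ρ g).mulVec ((ρ g).mulVec x) - t g • (ρ g).mulVec x + d g • x = 0) :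
    ∃ M : G →* Matrix (Fin 2) (Fin 2) 𝒪,
      (∀ g, (M g).trace = t g) ∧ (∀ g, (M g).det = d g) ∧
      (∀ (g : G) (I : Ideal 𝒪), MCong I (ρ g) 1 → d g - 1 ∈ I → MCong I (M g) 1) := by
  classical
  -- the character
  set ψ : G → 𝒪 := fun g => (ρ g).mulVec x i with hψ
  have hψx : ∀ g, (ρ g).mulVec x = ψ g • x := by
    intro g
    obtain ⟨a, ha⟩ := hx g
    have : ψ g = a := by
      simp only [hψ, ha, Pi.smul_apply, hxi, smul_eq_mul, mul_one]
    rw [this, ha]
  have hψ1 : ψ 1 = 1 := by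
    simp only [hψ, map_one, Matrix.one_mulVec, hxi]
  have hψmul : ∀ g h, ψ (g * h) = ψ g * ψ h := by
    intro g h
    have h1 : (ρ (g * h)).mulVec x = (ψ g * ψ h) • x := by
      rw [map_mul, ← Matrix.mulVec_mulVec, hψx h, Matrix.mulVec_smul, hψx g, smul_smul, mul_comm]
    have h2 := congrFun h1 i
    simpa only [Pi.smul_apply, hxi, smul_eq_mul, mul_one] using h2
  have hψinv : ∀ g, ψ g * ψ g⁻¹ = 1 := by
    intro g
    rw [← hψmul, mul_inv_cancel, hψ1]
  have hquad : ∀ g, ψ g * ψ g - t g * ψ g + d g = 0 := by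
    intro g
    have h1 := congrFun (hq g) i
    rw [hψx g, Matrix.mulVec_smul, hψx g] at h1
    simpa only [Pi.add_apply, Pi.sub_apply, Pi.smul_apply, hxi, smul_eq_mul, mul_one,
      Pi.zero_apply] using h1
  let M : G →* Matrix (Fin 2) (Fin 2) 𝒪 :=
    { toFun := fun g => !![ψ g, 0; 0, d g * ψ g⁻¹]
      map_one' := by
        ext a b
        fin_cases a <;> fin_cases b <;> simp [hψ1]
      map_mul' := by
        intro g h
        ext a b
        fin_cases a <;> fin_cases b <;>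
          simp [hψmul, Matrix.mul_apply, Fin.sum_univ_two]
        ring }
  have hM : ∀ g, M g = !![ψ g, 0; 0, d g * ψ g⁻¹] := fun _ => rfl
  refine ⟨M, fun g => ?_, fun g => ?_, fun g I hI hd => ?_⟩
  · rw [hM, Matrix.trace_fin_two_of]
    linear_combination ψ g⁻¹ * hquad g + (t g - ψ g) * hψinv g
  · rw [hM, Matrix.det_fin_two_of]
    linear_combination d g * hψinv g
  · have h1 : ψ g - 1 ∈ I := by
      have := hI.mulVec x i
      rwa [Matrix.one_mulVec, hxi] at this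
    have h2 : d g * ψ g⁻¹ - 1 ∈ I := by
      have : d g * ψ g⁻¹ - 1 = (d g - 1) * ψ g⁻¹ - ψ g⁻¹ * (ψ g - 1) := by
        linear_combination hψinv g
      rw [this]
      exact I.sub_mem (I.mul_mem_right _ hd) (I.mul_mem_left _ h1)
    intro a b
    rw [hM]
    fin_cases a <;> fin_cases b <;> simp [h1, h2]

end Fermat.Agent.S30
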