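import Mathlib

/-!
# S30, T8b: trace and determinant of a two dimensional representation all of whose elements
satisfy `X² - t X + d`
-/

set_option autoImplicit false

namespace Fermat.Agent.S30

namespace TwoByTwo

variable {R : Type*} [CommRing R]

theorem eq_smul_one (A : Matrix (Fin 2) (Fin 2) R) (h01 : A 0 1 = 0) (h10 : A 1 0 = 0)
    (h : A 0 0 = A 1 1) : A = A 0 0 • 1 := by
  ext i j
  fin_cases i <;> fin_cases j <;> simp [h01, h10, ← h]

theorem entries (A : Matrix (Fin 2) (Fin 2) R) (t d : R) (hq : A * A - t • A + d • 1 = 0) :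
    (A 0 0 * A 0 0 + A 0 1 * A 1 0 - t * A 0 0 + d = 0) ∧
    (A 0 0 * A 0 1 + A 0 1 * A 1 1 - t * A 0 1 = 0) ∧
    (A 1 0 * A 0 0 + A 1 1 * A 1 0 - t * A 1 0 = 0) ∧
    (A 1 0 * A 0 1 + A 1 1 * A 1 1 - t * A 1 1 + d = 0) := by
  have h00 := congrFun (congrFun hq 0) 0
  have h01 := congrFun (congrFun hq 0) 1
  have h10 := congrFun (congrFun hq 1) 0
  have h11 := congrFun (congrFun hq 1) 1
  simp [Matrix.mul_apply, Fin.sum_univ_two] at h00 h01 h10 h11
  exact ⟨h00, h01, h10, h11⟩

theorem nonscalar [IsDomain R] (A : Matrix (Fin 2) (Fin 2) R) (t d : R)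
    (hq : A * A - t • A + d • 1 = 0) (hA : ∀ s : R, A ≠ s • 1) :
    A.trace = t ∧ A.det = d := by
  obtain ⟨h00, h01, h10, h11⟩ := entries A t d hq
  have htr : A 0 0 + A 1 1 - t = 0 := by
    by_contra hne
    refine hA (A 0 0) (eq_smul_one A ?_ ?_ ?_)
    · have : A 0 1 * (A 0 0 + A 1 1 - t) = 0 := by linear_combination h01
      exact (mul_eq_zero.mp this).resolve_right hne
    · have : A 1 0 * (A 0 0 + A 1 1 - t) = 0 := by linear_combination h10
      exact (mul_eq_zero.mp this).resolve_right hne
    · have : (A 0 0 - A 1 1) * (A 0 0 + A 1 1 - t) = 0 := by linear_combination h00 - h11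
      exact sub_eq_zero.mp ((mul_eq_zero.mp this).resolve_right hne)
  refine ⟨?_, ?_⟩
  · rw [Matrix.trace_fin_two]; linear_combination htr
  · rw [Matrix.det_fin_two]; linear_combination A 0 0 * htr - h00

end TwoByTwo

open TwoByTwo in
/-- T8b -/
theorem trace_det_of_quadratic {R : Type*} [CommRing R] [IsDomain R] {G : Type*} [Group G]
    (M : G →* Matrix (Fin 2) (Fin 2) R) (t : G → R) (d : G →* R)
    (hq : ∀ g, M g * M g - t g • M g + d g • 1 = 0)
    (c : G) (hdc : d c = -1) (hc : ∀ s : R, M c ≠ s • 1) (g : G) :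
    (M g).trace = t g ∧ (M g).det = d g := by
  by_cases hg : ∀ s : R, M g ≠ s • 1
  · exact nonscalar _ _ _ (hq g) hg
  · push Not at hg
    obtain ⟨s, hs⟩ := hg
    have hs0 : s ≠ 0 := by
      rintro rfl
      have h1 : M g * M g⁻¹ = 1 := by rw [← map_mul, mul_inv_cancel, map_one]
      rw [hs, zero_smul, zero_mul] at h1
      have := congrFun (congrFun h1 0) 0
      simp at this
    have hgc : M (g * c) = s • M c := by rw [map_mul, hs, Matrix.smul_mul, one_mul]
    have hgc' : ∀ s' : R, M (g * c) ≠ s' • 1 := by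
      intro s' h
      rw [hgc] at h
      have h00 := congrFun (congrFun h 0) 0
      have h01 := congrFun (congrFun h 0) 1
      have h10 := congrFun (congrFun h 1) 0
      have h11 := congrFun (congrFun h 1) 1
      simp at h00 h01 h10 h11
      refine hc (M c 0 0) (eq_smul_one _ (h01.resolve_left hs0) (h10.resolve_left hs0) ?_)
      exact mul_left_cancel₀ hs0 (h00.trans h11.symm)
    have hdetc := (nonscalar _ _ _ (hq c) hc).2
    have hdetgc := (nonscalar _ _ _ (hq (g * c)) hgc').2
    rw [hgc, Matrix.det_smul, hdetc, map_mul, hdc, Fintype.card_fin] at hdetgc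
    have hsd : s ^ 2 = d g := by linear_combination -hdetgc
    have h00 := (entries _ _ _ (hq g)).1
    rw [hs] at h00 ⊢
    simp at h00
    refine ⟨?_, ?_⟩
    · rw [Matrix.trace_fin_two]
      simp
      have : s * (s + s - t g) = 0 := by linear_combination h00 + hsd
      have := (mul_eq_zero.mp this).resolve_left hs0
      linear_combination this
    · rw [Matrix.det_fin_two]
      simp
      linear_combination hsd

end Fermat.Agent.S30
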