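import Fermat.Agent.S30.Cong
import Fermat.Agent.S30.TwoByTwo

/-!
# S30, T8c: the plane case of the extraction
-/

set_option autoImplicit false

namespace Fermat.Agent.S30

/-- T8c (plane case): a stable plane `𝒪 x ⊕ 𝒪 y` in echelon form on which `c` is not scalar. -/
theorem extract_plane {𝒪 : Type*} [CommRing 𝒪] [IsDomain 𝒪] {G : Type*} [Group G] {r : ℕ}
    (ρ : G →* Matrix (Fin r) (Fin r) 𝒪) (t : G → 𝒪) (d : G →* 𝒪)
    (x y : Fin r → 𝒪) (i j : Fin r) (hxi : x i = 1) (hxj : x j = 0) (hyi : y i = 0) (hyj : y j = 1)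
    (hx : ∀ g, ∃ α β : 𝒪, (ρ g).mulVec x = α • x + β • y)
    (hy : ∀ g, ∃ α β : 𝒪, (ρ g).mulVec y = α • x + β • y)
    (hqx : ∀ g, (ρ g).mulVec ((ρ g).mulVec x) - t g • (ρ g).mulVec x + d g • x = 0)
    (hqy : ∀ g, (ρ g).mulVec ((ρ g).mulVec y) - t g • (ρ g).mulVec y + d g • y = 0)
    (c : G) (hdc : d c = -1)
    (hc : ∀ s : 𝒪, ¬ ((ρ c).mulVec x = s • x ∧ (ρ c).mulVec y = s • y)) :
    ∃ M : G →* Matrix (Fin 2) (Fin 2) 𝒪,
      (∀ g, (M g).trace = t g) ∧ (∀ g, (M g).det = d g) ∧
      (∀ (g : G) (I : Ideal 𝒪), MCong I (ρ g) 1 → d g - 1 ∈ I → MCong I (M g) 1) := by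
  classical
  have hx' : ∀ g, (ρ g).mulVec x = (ρ g).mulVec x i • x + (ρ g).mulVec x j • y := by
    intro g
    obtain ⟨α, β, h⟩ := hx g
    have h1 : (ρ g).mulVec x i = α := by
      simp only [h, Pi.add_apply, Pi.smul_apply, hxi, hyi, smul_eq_mul, mul_one, mul_zero,
        add_zero]
    have h2 : (ρ g).mulVec x j = β := by
      simp only [h, Pi.add_apply, Pi.smul_apply, hxj, hyj, smul_eq_mul, mul_one, mul_zero,
        zero_add]
    rw [h1, h2, h]
  have hy' : ∀ g, (ρ g).mulVec y = (ρ g).mulVec y i • x + (ρ g).mulVec y j • y := by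
    intro g
    obtain ⟨α, β, h⟩ := hy g
    have h1 : (ρ g).mulVec y i = α := by
      simp only [h, Pi.add_apply, Pi.smul_apply, hxi, hyi, smul_eq_mul, mul_one, mul_zero,
        add_zero]
    have h2 : (ρ g).mulVec y j = β := by
      simp only [h, Pi.add_apply, Pi.smul_apply, hxj, hyj, smul_eq_mul, mul_one, mul_zero,
        zero_add]
    rw [h1, h2, h]
  -- composition formulas
  have hmx : ∀ g h (k : Fin r), (ρ (g * h)).mulVec x k =
      (ρ h).mulVec x i * (ρ g).mulVec x k + (ρ h).mulVec x j * (ρ g).mulVec y k := by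
    intro g h k
    rw [map_mul, ← Matrix.mulVec_mulVec]
    conv_lhs => rw [hx' h]
    rw [Matrix.mulVec_add, Matrix.mulVec_smul, Matrix.mulVec_smul]
    simp only [Pi.add_apply, Pi.smul_apply, smul_eq_mul]
  have hmy : ∀ g h (k : Fin r), (ρ (g * h)).mulVec y k =
      (ρ h).mulVec y i * (ρ g).mulVec x k + (ρ h).mulVec y j * (ρ g).mulVec y k := by
    intro g h k
    rw [map_mul, ← Matrix.mulVec_mulVec]
    conv_lhs => rw [hy' h]
    rw [Matrix.mulVec_add, Matrix.mulVec_smul, Matrix.mulVec_smul]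
    simp only [Pi.add_apply, Pi.smul_apply, smul_eq_mul]
  let M : G →* Matrix (Fin 2) (Fin 2) 𝒪 :=
    { toFun := fun g => !![(ρ g).mulVec x i, (ρ g).mulVec y i; (ρ g).mulVec x j, (ρ g).mulVec y j]
      map_one' := by
        ext a b
        fin_cases a <;> fin_cases b <;> simp [hxi, hxj, hyi, hyj]
      map_mul' := by
        intro g h
        ext a b
        fin_cases a <;> fin_cases b <;>
          simp only [hmx, hmy, Matrix.mul_apply, Fin.sum_univ_two, Matrix.of_apply,
            Matrix.cons_val', Matrix.cons_val_zero, Matrix.cons_val_one, Fin.zero_eta,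
            Fin.mk_one, Matrix.cons_val_fin_one] <;> ring }
  have hM : ∀ g, M g =
      !![(ρ g).mulVec x i, (ρ g).mulVec y i; (ρ g).mulVec x j, (ρ g).mulVec y j] := fun _ => rfl
  have hquad : ∀ g, M g * M g - t g • M g + d g • 1 = 0 := by
    intro g
    rw [← map_mul, hM, hM]
    have e1 : ∀ k, (ρ (g * g)).mulVec x k - t g * (ρ g).mulVec x k + d g * x k = 0 := by
      intro k
      have := congrFun (hqx g) k
      rw [Matrix.mulVec_mulVec, ← map_mul] at this
      simpa only [Pi.add_apply, Pi.sub_apply, Pi.smul_apply, smul_eq_mul, Pi.zero_apply] using this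
    have e2 : ∀ k, (ρ (g * g)).mulVec y k - t g * (ρ g).mulVec y k + d g * y k = 0 := by
      intro k
      have := congrFun (hqy g) k
      rw [Matrix.mulVec_mulVec, ← map_mul] at this
      simpa only [Pi.add_apply, Pi.sub_apply, Pi.smul_apply, smul_eq_mul, Pi.zero_apply] using this
    have e1i := e1 i
    have e1j := e1 j
    have e2i := e2 i
    have e2j := e2 j
    rw [hxi, mul_one] at e1i
    rw [hxj, mul_zero, add_zero] at e1j
    rw [hyi, mul_zero, add_zero] at e2i
    rw [hyj, mul_one] at e2j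
    rw [map_mul] at e1i e1j e2i e2j
    ext a b
    fin_cases a <;> fin_cases b <;> simp [e1i, e1j, e2i, e2j]
  have hcM : ∀ s : 𝒪, M c ≠ s • 1 := by
    intro s h
    rw [hM] at h
    have h00 := congrFun (congrFun h 0) 0
    have h01 := congrFun (congrFun h 0) 1
    have h10 := congrFun (congrFun h 1) 0
    have h11 := congrFun (congrFun h 1) 1
    simp at h00 h01 h10 h11
    refine hc s ⟨?_, ?_⟩
    · rw [hx' c, h00, h10, zero_smul, add_zero]
    · rw [hy' c, h01, h11, zero_smul, zero_add]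
  have key := trace_det_of_quadratic M t d hquad c hdc hcM
  refine ⟨M, fun g => (key g).1, fun g => (key g).2, fun g I hI _ => ?_⟩
  have f1 : ∀ k, (ρ g).mulVec x k - x k ∈ I := by
    intro k
    have := hI.mulVec x k
    rwa [Matrix.one_mulVec] at this
  have f2 : ∀ k, (ρ g).mulVec y k - y k ∈ I := by
    intro k
    have := hI.mulVec y k
    rwa [Matrix.one_mulVec] at this
  have f1i := f1 i
  have f1j := f1 j
  have f2i := f2 i
  have f2j := f2 j
  rw [hxi] at f1i
  rw [hxj, sub_zero] at f1j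
  rw [hyi, sub_zero] at f2i
  rw [hyj] at f2j
  intro a b
  rw [hM]
  fin_cases a <;> fin_cases b <;> simp [f1i, f1j, f2i, f2j]

end Fermat.Agent.S30
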