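import Mathlib

/-!
# S30, T7: a stable line or a stable plane (complex conjugation trick)
-/

set_option autoImplicit false

namespace Fermat.Agent.S30

section stable

variable {K : Type*} [Field K] {G : Type*} [Group G]
    {V : Type*} [AddCommGroup V] [Module K V] (a : G →* Module.End K V) (W : Submodule K V)
    (hstab : ∀ g, ∀ v ∈ W, a g v ∈ W) (t : G → K) (d : G →* K)
    (hq : ∀ g, ∀ v ∈ W, a g (a g v) - t g • a g v + d g • v = 0)

theorem stable_mul (x y : G) (v : V) : a (x * y) v = a x (a y v) := by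
  rw [map_mul, Module.End.mul_apply]

theorem stable_inj (x : G) {u v : V} (h : a x u = a x v) : u = v := by
  have h1 : ∀ w, a x⁻¹ (a x w) = w := fun w => by
    rw [← stable_mul, inv_mul_cancel, map_one, Module.End.one_apply]
  rw [← h1 u, ← h1 v, h]

include hstab hq in
theorem stable_anticomm (x y : G) (u : V) (hu : u ∈ W) :
    a x (a y u) + a y (a x u)
      = t (x * y) • u - (t x * t y) • u + t y • a x u + t x • a y u := by
  have hstar : ∀ (g : G) (v : V), v ∈ W → a g (t g • v - a g v) = d g • v := by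
    intro g v hv
    rw [map_sub, map_smul]
    linear_combination (norm := module) -(hq g v hv)
  have hmem : t x • u - a x u ∈ W := sub_mem (W.smul_mem _ hu) (hstab x u hu)
  have h1 : a (x * y) (t (x * y) • u - a (x * y) u)
      = a (x * y) (t y • (t x • u - a x u) - a y (t x • u - a x u)) := by
    rw [hstar (x * y) u hu, stable_mul, hstar y _ hmem, map_smul, hstar x u hu, map_mul, smul_smul,
      mul_comm]
  have h2 := stable_inj a (x * y) h1
  rw [stable_mul, map_sub, map_smul] at h2
  linear_combination (norm := module) -h2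

include hstab hq in
/-- for an eigenvector `z` of `c` (`t c = 0`), `(c + η)(g z)` is a multiple of `z`. -/
theorem stable_key (c : G) (htc : t c = 0) (η : K) (z : V) (hz : z ∈ W) (hcz : a c z = η • z)
    (g : G) : a c (a g z) + η • a g z = (t (c * g) + η * t g) • z := by
  have h := stable_anticomm a W hstab t d hq c g z hz
  rw [hcz, map_smul, htc] at h
  linear_combination (norm := module) h

end stable

/-- T7: `W ≠ 0` a `G`-stable subspace on which every `g` satisfies `g² - t(g) g + d(g) = 0`,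
`d` multiplicative, `c² = 1`, `d(c) = -1`, `2 ≠ 0`.  Then `W` contains a stable line or a stable
plane on which `c` is not a scalar. -/
theorem exists_line_or_plane {K : Type*} [Field K] (h2 : (2 : K) ≠ 0) {G : Type*} [Group G]
    {V : Type*} [AddCommGroup V] [Module K V] (a : G →* Module.End K V) (W : Submodule K V)
    (hW : W ≠ ⊥) (hstab : ∀ g, ∀ v ∈ W, a g v ∈ W) (t : G → K) (d : G →* K)
    (hq : ∀ g, ∀ v ∈ W, a g (a g v) - t g • a g v + d g • v = 0)
    (c : G) (hc : c * c = 1) (hdc : d c = -1) :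
    (∃ x ∈ W, x ≠ 0 ∧ ∀ g, ∃ ψ : K, a g x = ψ • x) ∨
    (∃ x ∈ W, ∃ y ∈ W, (∀ α β : K, α • x + β • y = 0 → α = 0 ∧ β = 0) ∧
      (∀ g, ∃ α β : K, a g x = α • x + β • y) ∧ (∀ g, ∃ α β : K, a g y = α • x + β • y) ∧
      ∃ ε : K, ε ≠ 0 ∧ a c x = ε • x ∧ a c y = -ε • y) := by
  obtain ⟨v, hv, hv0⟩ := Submodule.exists_mem_ne_zero_of_ne_bot hW
  have hcc : ∀ u, a c (a c u) = u := fun u => by
    rw [← stable_mul, hc, map_one, Module.End.one_apply]
  -- `t c = 0`
  have htc : t c = 0 := by
    have h := hq c v hv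
    rw [hcc, hdc] at h
    have h1 : t c • a c v = 0 := by linear_combination (norm := module) -h
    rcases smul_eq_zero.1 h1 with h3 | h3
    · exact h3
    · exfalso
      apply hv0
      rw [← hcc v, h3, map_zero]
  -- an eigenvector of `c`
  obtain ⟨ε, w, hε, hw, hw0, hcw⟩ : ∃ (ε : K) (w : V), ε * ε = 1 ∧ w ∈ W ∧ w ≠ 0 ∧ a c w = ε • w := by
    by_cases h : a c v + v = 0
    · exact ⟨-1, v, by ring, hv, hv0, by linear_combination (norm := module) h⟩
    · exact ⟨1, a c v + v, by ring, add_mem (hstab c v hv) hv, h, by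
        rw [map_add, hcc]; module⟩
  have hε0 : ε ≠ 0 := by
    intro h; rw [h] at hε; simp at hε
  have h2ε : 2 * ε ≠ 0 := mul_ne_zero h2 hε0
  have keyw := stable_key a W hstab t d hq c htc ε w hw hcw
  by_cases hA : ∀ g, a c (a g w) = ε • a g w
  · -- the line `K w`
    left
    refine ⟨w, hw, hw0, fun g => ⟨(2 * ε)⁻¹ * (t (c * g) + ε * t g), ?_⟩⟩
    have h := keyw g
    rw [hA g] at h
    have h3 : (2 * ε) • a g w = (t (c * g) + ε * t g) • w := by
      linear_combination (norm := module) h
    rw [mul_smul, ← h3, smul_smul, inv_mul_cancel₀ h2ε, one_smul]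
  push Not at hA
  obtain ⟨g0, hg0⟩ := hA
  set b : V := a c (a g0 w) - ε • a g0 w with hb
  have hb0 : b ≠ 0 := sub_ne_zero.2 hg0
  have hbW : b ∈ W := sub_mem (hstab _ _ (hstab _ _ hw)) (W.smul_mem _ (hstab _ _ hw))
  have hcb : a c b = (-ε) • b := by
    rw [hb, map_sub, map_smul, hcc]
    have : a g0 w = (ε * ε) • a g0 w := by rw [hε, one_smul]
    linear_combination (norm := module) this
  have keyb := stable_key a W hstab t d hq c htc (-ε) b hbW hcb
  -- `(c + ε)(g b)` is a multiple of `w`
  have hν : ∀ g, a c (a g b) + ε • a g b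
      = ((t (c * (g * c * g0)) + ε * t (g * c * g0)) - ε * (t (c * (g * g0)) + ε * t (g * g0))) • w := by
    intro g
    have h1 := keyw (g * c * g0)
    have h3 := keyw (g * g0)
    have h4 : a g b = a (g * c * g0) w - ε • a (g * g0) w := by
      rw [hb, map_sub, map_smul, stable_mul, stable_mul, stable_mul]
    rw [h4, map_sub, map_smul]
    linear_combination (norm := module) h1 - ε • h3
  set ν : G → K := fun g =>
    (t (c * (g * c * g0)) + ε * t (g * c * g0)) - ε * (t (c * (g * g0)) + ε * t (g * g0)) with hνdef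
  set μ : G → K := fun g => t (c * g) + -ε * t g with hμdef
  have hgb : ∀ g, a g b = ((2 * ε)⁻¹ * ν g) • w + (-(2 * ε)⁻¹ * μ g) • b := by
    intro g
    have h1 : (2 * ε) • a g b = ν g • w - μ g • b := by
      linear_combination (norm := module) hν g - keyb g
    have h3 : a g b = (2 * ε)⁻¹ • ((2 * ε) • a g b) := by
      rw [smul_smul, inv_mul_cancel₀ h2ε, one_smul]
    rw [h3, h1]
    module
  by_cases hB : ∀ g, ν g = 0
  · -- the line `K b`
    left
    refine ⟨b, hbW, hb0, fun g => ⟨-(2 * ε)⁻¹ * μ g, ?_⟩⟩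
    rw [hgb g, hB g]
    module
  push Not at hB
  obtain ⟨g1, hg1⟩ := hB
  right
  have hww : w = (ν g1)⁻¹ • (a (c * g1) b + ε • a g1 b) := by
    rw [stable_mul, hν g1, smul_smul, inv_mul_cancel₀ hg1, one_smul]
  refine ⟨w, hw, b, hbW, ?_, ?_, fun g => ⟨_, _, hgb g⟩, ε, hε0, hcw, hcb⟩
  · intro α β h
    have h1 := congrArg (a c) h
    rw [map_add, map_smul, map_smul, hcw, hcb, map_zero] at h1
    have h3 : (2 * ε * α) • w = 0 := by
      linear_combination (norm := module) h1 + ε • h
    have h4 : (2 * ε * β) • b = 0 := by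
      linear_combination (norm := module) -h1 + ε • h
    constructor
    · rcases smul_eq_zero.1 h3 with h5 | h5
      · exact (mul_eq_zero.1 h5).resolve_left h2ε
      · exact absurd h5 hw0
    · rcases smul_eq_zero.1 h4 with h5 | h5
      · exact (mul_eq_zero.1 h5).resolve_left h2ε
      · exact absurd h5 hb0
  · intro g
    have h1 : a g w = (ν g1)⁻¹ • (a (g * (c * g1)) b + ε • a (g * g1) b) := by
      conv_lhs => rw [hww]
      rw [map_smul, map_add, map_smul, ← stable_mul, ← stable_mul]
    rw [h1, hgb, hgb]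
    refine ⟨(ν g1)⁻¹ * ((2 * ε)⁻¹ * ν (g * (c * g1)) + ε * ((2 * ε)⁻¹ * ν (g * g1))),
      (ν g1)⁻¹ * ((-(2 * ε)⁻¹ * μ (g * (c * g1))) + ε * (-(2 * ε)⁻¹ * μ (g * g1))), ?_⟩
    module

end Fermat.Agent.S30
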