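import Fermat.Agent.S30.Cong
import Fermat.Agent.S30.Stable
import Fermat.Agent.S30.ExtractLine
import Fermat.Agent.S30.ExtractPlane
import Fermat.Agent.S30.Lattice

/-!
# S30, T8/T9: extraction of the two dimensional representation
-/

set_option autoImplicit false

namespace Fermat.Agent.S30

section extractAux

set_option linter.unusedSectionVars false

variable {𝒪 : Type} [CommRing 𝒪] [IsDomain 𝒪] (K : Type) [Field K] [Algebra 𝒪 K]
  [IsFractionRing 𝒪 K]

/-- `𝒪^r → K^r`. -/
def extract_emb {r : ℕ} (w : Fin r → 𝒪) : Fin r → K :=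
  fun k => algebraMap 𝒪 K (w k)

/-- the action on `K^r`. -/
noncomputable def extract_act {G : Type} [Group G] {r : ℕ} (ρ : G →* Matrix (Fin r) (Fin r) 𝒪) :
    G →* Module.End K (Fin r → K) :=
  ((Matrix.toLinAlgEquiv' (R := K) (n := Fin r)).toAlgHom.toRingHom.toMonoidHom.comp
    (RingHom.mapMatrix (algebraMap 𝒪 K)).toMonoidHom).comp ρ

variable {K}

theorem extract_emb_injective {r : ℕ} : Function.Injective (extract_emb (𝒪 := 𝒪) K (r := r)) := by
  intro v w h
  funext k
  exact IsFractionRing.injective 𝒪 K (congrFun h k)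

theorem extract_emb_add {r : ℕ} (v w : Fin r → 𝒪) :
    extract_emb K (v + w) = extract_emb K v + extract_emb K w := by
  funext k; simp [extract_emb]

theorem extract_emb_sub {r : ℕ} (v w : Fin r → 𝒪) :
    extract_emb K (v - w) = extract_emb K v - extract_emb K w := by
  funext k; simp [extract_emb]

theorem extract_emb_zero {r : ℕ} : extract_emb K (0 : Fin r → 𝒪) = 0 := by
  funext k; simp [extract_emb]

theorem extract_emb_smul {r : ℕ} (s : 𝒪) (w : Fin r → 𝒪) :
    extract_emb K (s • w) = algebraMap 𝒪 K s • extract_emb K w := by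
  funext k; simp [extract_emb]

theorem extract_act_emb {G : Type} [Group G] {r : ℕ} (ρ : G →* Matrix (Fin r) (Fin r) 𝒪) (g : G)
    (w : Fin r → 𝒪) : extract_act K ρ g (extract_emb K w) = extract_emb K ((ρ g).mulVec w) := by
  funext k
  have := RingHom.map_mulVec (algebraMap 𝒪 K) (ρ g) w k
  exact this.symm

variable (K)

/-- the `K`-span of `W`. -/
def extract_WK {r : ℕ} (W : Submodule 𝒪 (Fin r → 𝒪)) : Submodule K (Fin r → K) where
  carrier := {v | ∃ s : 𝒪, s ≠ 0 ∧ ∃ w ∈ W, algebraMap 𝒪 K s • v = extract_emb K w}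
  zero_mem' := ⟨1, one_ne_zero, 0, zero_mem _, by rw [smul_zero, extract_emb_zero]⟩
  add_mem' := by
    rintro v1 v2 ⟨s1, hs1, w1, hw1, h1⟩ ⟨s2, hs2, w2, hw2, h2⟩
    refine ⟨s1 * s2, mul_ne_zero hs1 hs2, s2 • w1 + s1 • w2,
      add_mem (W.smul_mem _ hw1) (W.smul_mem _ hw2), ?_⟩
    rw [extract_emb_add, extract_emb_smul, extract_emb_smul, ← h1, ← h2, map_mul]
    module
  smul_mem' := by
    rintro k v ⟨s, hs, w, hw, h⟩
    obtain ⟨n, m, hm, rfl⟩ := IsFractionRing.div_surjective (A := 𝒪) k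
    have hm0 : m ≠ 0 := nonZeroDivisors.ne_zero hm
    have hm1 : algebraMap 𝒪 K m ≠ 0 := by
      rw [Ne, map_eq_zero_iff _ (IsFractionRing.injective 𝒪 K)]; exact hm0
    refine ⟨s * m, mul_ne_zero hs hm0, n • w, W.smul_mem _ hw, ?_⟩
    rw [extract_emb_smul, ← h, map_mul, smul_smul, smul_smul]
    congr 1
    field_simp

variable {K}

theorem extract_emb_mem {r : ℕ} (W : Submodule 𝒪 (Fin r → 𝒪)) {w : Fin r → 𝒪} (hw : w ∈ W) :
    extract_emb K w ∈ extract_WK K W :=
  ⟨1, one_ne_zero, w, hw, by rw [map_one, one_smul]⟩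

theorem extract_mem_of_emb {r : ℕ} (W : Submodule 𝒪 (Fin r → 𝒪))
    (hsat : ∀ (s : 𝒪) (v : Fin r → 𝒪), s ≠ 0 → s • v ∈ W → v ∈ W) {w : Fin r → 𝒪}
    (hw : extract_emb K w ∈ extract_WK K W) : w ∈ W := by
  obtain ⟨s, hs, w', hw', h⟩ := hw
  rw [← extract_emb_smul] at h
  exact hsat s w hs (by rw [extract_emb_injective h]; exact hw')

end extractAux

theorem extract_gen {𝒪 : Type} [CommRing 𝒪] [IsDomain 𝒪] (K : Type) [Field K] [Algebra 𝒪 K]
    [IsFractionRing 𝒪 K] [ValuationRing 𝒪] (h2 : (2 : 𝒪) ≠ 0)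
    {G : Type} [Group G] {r : ℕ} (ρ : G →* Matrix (Fin r) (Fin r) 𝒪)
    (W : Submodule 𝒪 (Fin r → 𝒪)) (hW : W ≠ ⊥)
    (hsat : ∀ (s : 𝒪) (v : Fin r → 𝒪), s ≠ 0 → s • v ∈ W → v ∈ W)
    (hstab : ∀ g, ∀ v ∈ W, (ρ g).mulVec v ∈ W) (t : G → 𝒪) (d : G →* 𝒪)
    (hq : ∀ g, ∀ v ∈ W, (ρ g).mulVec ((ρ g).mulVec v) - t g • (ρ g).mulVec v + d g • v = 0)
    (c : G) (hc : c * c = 1) (hdc : d c = -1) :
    ∃ M : G →* Matrix (Fin 2) (Fin 2) 𝒪,
      (∀ g, (M g).trace = t g) ∧ (∀ g, (M g).det = d g) ∧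
      (∀ (g : G) (I : Ideal 𝒪), MCong I (ρ g) 1 → d g - 1 ∈ I → MCong I (M g) 1) := by
  set ι : 𝒪 →+* K := algebraMap 𝒪 K with hι
  have hιinj : Function.Injective ι := IsFractionRing.injective 𝒪 K
  have hι0 : ∀ s : 𝒪, s ≠ 0 → ι s ≠ 0 := fun s hs => by
    rw [Ne, map_eq_zero_iff _ hιinj]; exact hs
  have h2K : (2 : K) ≠ 0 := by
    have := hι0 2 h2
    rwa [map_ofNat] at this
  have hWK : extract_WK K W ≠ ⊥ := by
    obtain ⟨w, hw, hw0⟩ := Submodule.exists_mem_ne_zero_of_ne_bot hW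
    intro h
    have h1 := extract_emb_mem (K := K) W hw
    rw [h, Submodule.mem_bot, ← extract_emb_zero (𝒪 := 𝒪)] at h1
    exact hw0 (extract_emb_injective h1)
  have hstabK : ∀ g, ∀ v ∈ extract_WK K W, extract_act K ρ g v ∈ extract_WK K W := by
    rintro g v ⟨s, hs, w, hw, h⟩
    exact ⟨s, hs, (ρ g).mulVec w, hstab g w hw, by rw [← map_smul, h, extract_act_emb]⟩
  have hqK : ∀ g, ∀ v ∈ extract_WK K W, extract_act K ρ g (extract_act K ρ g v)
      - ι (t g) • extract_act K ρ g v + ((ι : 𝒪 →* K).comp d) g • v = 0 := by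
    rintro g v ⟨s, hs, w, hw, h⟩
    have h1 := congrArg (extract_emb K) (hq g w hw)
    rw [extract_emb_add, extract_emb_sub, extract_emb_smul, extract_emb_smul, ← extract_act_emb,
      ← extract_act_emb, ← h, extract_emb_zero, map_smul, map_smul] at h1
    have h3 : ι s • (extract_act K ρ g (extract_act K ρ g v)
      - ι (t g) • extract_act K ρ g v + ((ι : 𝒪 →* K).comp d) g • v) = 0 := by
      rw [← h1]
      simp only [MonoidHom.comp_apply, MonoidHom.coe_coe]
      module
    exact (smul_eq_zero.1 h3).resolve_left (hι0 s hs)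
  rcases exists_line_or_plane h2K (extract_act K ρ) (extract_WK K W) hWK hstabK (fun g => ι (t g))
    ((ι : 𝒪 →* K).comp d) hqK c hc (by simp [hdc]) with
    ⟨x, hxW, hx0, hx⟩ | ⟨x, hxW, y, hyW, hind, hx, hy, ε, hε0, hcx, hcy⟩
  · -- line
    obtain ⟨s, w, i, hs, hwi, hw⟩ := exists_primitive (𝒪 := 𝒪) x hx0
    have hwx : extract_emb K w = s • x := by
      funext k; exact hw k
    have hwW : w ∈ W := extract_mem_of_emb (K := K) W hsat (by
      rw [hwx]; exact (extract_WK K W).smul_mem _ hxW)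
    refine extract_line ρ t d w i hwi (fun g => ⟨((ρ g).mulVec w) i, ?_⟩) (fun g => hq g w hwW)
    obtain ⟨ψ, hψ⟩ := hx g
    have h1 : extract_emb K ((ρ g).mulVec w) = ψ • extract_emb K w := by
      rw [← extract_act_emb, hwx, map_smul, hψ, smul_comm]
    have h3 : ι (((ρ g).mulVec w) i) = ψ := by
      have := congrFun h1 i
      simpa [extract_emb, hwi] using this
    apply extract_emb_injective (K := K)
    rw [h1, extract_emb_smul, ← h3]
  · -- plane
    obtain ⟨x', y', i, j, hxi, hxj, hyi, hyj, ⟨α1, β1, h1⟩, ⟨α2, β2, h2'⟩, ⟨α3, β3, h3⟩,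
      ⟨α4, β4, h4⟩⟩ := exists_plane_basis (𝒪 := 𝒪) x y hind
    change extract_emb K x' = _ at h1
    change extract_emb K y' = _ at h2'
    change x = α3 • extract_emb K x' + β3 • extract_emb K y' at h3
    change y = α4 • extract_emb K x' + β4 • extract_emb K y' at h4
    have hx'W : x' ∈ W := extract_mem_of_emb (K := K) W hsat (by
      rw [h1]; exact add_mem ((extract_WK K W).smul_mem _ hxW) ((extract_WK K W).smul_mem _ hyW))
    have hy'W : y' ∈ W := extract_mem_of_emb (K := K) W hsat (by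
      rw [h2']; exact add_mem ((extract_WK K W).smul_mem _ hxW) ((extract_WK K W).smul_mem _ hyW))
    -- stability of the plane in the new basis
    have hcomb : ∀ (g : G) (α β : K), ∃ α' β' : K,
        extract_act K ρ g (α • x + β • y) = α' • extract_emb K x' + β' • extract_emb K y' := by
      intro g α β
      obtain ⟨a1, b1, e1⟩ := hx g
      obtain ⟨a2, b2, e2⟩ := hy g
      refine ⟨(α * a1 + β * a2) * α3 + (α * b1 + β * b2) * α4,
        (α * a1 + β * a2) * β3 + (α * b1 + β * b2) * β4, ?_⟩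
      rw [map_add, map_smul, map_smul, e1, e2]
      have e3 : α • (a1 • x + b1 • y) + β • (a2 • x + b2 • y)
          = (α * a1 + β * a2) • x + (α * b1 + β * b2) • y := by module
      rw [e3]
      conv_lhs => rw [h3, h4]
      module
    have hint : ∀ (g : G) (z : Fin r → 𝒪) (α β : K), extract_emb K z = α • x + β • y →
        ∃ α' β' : 𝒪, (ρ g).mulVec z = α' • x' + β' • y' := by
      intro g z α β hz
      obtain ⟨α', β', e⟩ := hcomb g α β
      rw [← hz, extract_act_emb] at e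
      have ei : ι (((ρ g).mulVec z) i) = α' := by
        have := congrFun e i
        simpa [extract_emb, hxi, hyi] using this
      have ej : ι (((ρ g).mulVec z) j) = β' := by
        have := congrFun e j
        simpa [extract_emb, hxj, hyj] using this
      refine ⟨((ρ g).mulVec z) i, ((ρ g).mulVec z) j, ?_⟩
      apply extract_emb_injective (K := K)
      rw [e, extract_emb_add, extract_emb_smul, extract_emb_smul, ← ei, ← ej]
    have hx0 : x ≠ 0 := by
      intro h
      have := (hind 1 0 (by rw [h]; simp)).1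
      exact one_ne_zero this
    have hy0 : y ≠ 0 := by
      intro h
      have := (hind 0 1 (by rw [h]; simp)).2
      exact one_ne_zero this
    refine extract_plane ρ t d x' y' i j hxi hxj hyi hyj (fun g => hint g x' α1 β1 h1)
      (fun g => hint g y' α2 β2 h2') (fun g => hq g x' hx'W) (fun g => hq g y' hy'W) c hdc ?_
    rintro s ⟨e1, e2⟩
    have f1 : extract_act K ρ c (extract_emb K x') = ι s • extract_emb K x' := by
      rw [extract_act_emb, e1, extract_emb_smul]
    have f2 : extract_act K ρ c (extract_emb K y') = ι s • extract_emb K y' := by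
      rw [extract_act_emb, e2, extract_emb_smul]
    have g1 : extract_act K ρ c x = ι s • x := by
      conv_lhs => rw [h3]
      conv_rhs => rw [h3]
      rw [map_add, map_smul, map_smul, f1, f2]
      module
    have g2 : extract_act K ρ c y = ι s • y := by
      conv_lhs => rw [h4]
      conv_rhs => rw [h4]
      rw [map_add, map_smul, map_smul, f1, f2]
      module
    have k1 : (ι s - ε) • x = 0 := by
      rw [sub_smul, ← g1, hcx, sub_self]
    have k2 : (ι s + ε) • y = 0 := by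
      rw [add_smul, ← g2, hcy]; module
    have k3 := (smul_eq_zero.1 k1).resolve_right hx0
    have k4 := (smul_eq_zero.1 k2).resolve_right hy0
    have k5 : 2 * ε = 0 := by linear_combination k4 - k3
    exact (mul_ne_zero h2K hε0) k5

/-- T8 -/
theorem extract {𝒪 : Type} [CommRing 𝒪] [IsDomain 𝒪] [ValuationRing 𝒪] (h2 : (2 : 𝒪) ≠ 0)
    {G : Type} [Group G] {r : ℕ} (ρ : G →* Matrix (Fin r) (Fin r) 𝒪)
    (W : Submodule 𝒪 (Fin r → 𝒪)) (hW : W ≠ ⊥)
    (hsat : ∀ (s : 𝒪) (v : Fin r → 𝒪), s ≠ 0 → s • v ∈ W → v ∈ W)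
    (hstab : ∀ g, ∀ v ∈ W, (ρ g).mulVec v ∈ W) (t : G → 𝒪) (d : G →* 𝒪)
    (hq : ∀ g, ∀ v ∈ W, (ρ g).mulVec ((ρ g).mulVec v) - t g • (ρ g).mulVec v + d g • v = 0)
    (c : G) (hc : c * c = 1) (hdc : d c = -1) :
    ∃ M : G →* Matrix (Fin 2) (Fin 2) 𝒪,
      (∀ g, (M g).trace = t g) ∧ (∀ g, (M g).det = d g) ∧
      (∀ (g : G) (I : Ideal 𝒪), MCong I (ρ g) 1 → d g - 1 ∈ I → MCong I (M g) 1) :=
  extract_gen (FractionRing 𝒪) h2 ρ W hW hsat hstab t d hq c hc hdc

end Fermat.Agent.S30
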