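import Fermat.Agent.S30.Defs

/-!
# S30, T1: calculus of entrywise congruences and adic limits of matrices
-/

set_option autoImplicit false

namespace Fermat.Agent.S30

open IsLocalRing

section basic

variable {R : Type*} [CommRing R] {l m n : Type*} {I J : Ideal R}

theorem MCong.refl (A : Matrix m n R) : MCong I A A := fun i j => by
  rw [sub_self]; exact I.zero_mem

theorem MCong.of_eq {A B : Matrix m n R} (h : A = B) : MCong I A B := h ▸ MCong.refl A

theorem MCong.symm {A B : Matrix m n R} (h : MCong I A B) : MCong I B A := fun i j => by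
  rw [← neg_sub]; exact I.neg_mem (h i j)

theorem MCong.trans {A B C : Matrix m n R} (h : MCong I A B) (h' : MCong I B C) :
    MCong I A C := fun i j => by
  rw [← sub_add_sub_cancel (A i j) (B i j) (C i j)]; exact I.add_mem (h i j) (h' i j)

theorem MCong.mono (hIJ : I ≤ J) {A B : Matrix m n R} (h : MCong I A B) : MCong J A B :=
  fun i j => hIJ (h i j)

theorem MCong.add {A B A' B' : Matrix m n R} (h : MCong I A B) (h' : MCong I A' B') :
    MCong I (A + A') (B + B') := fun i j => by
  rw [Matrix.add_apply, Matrix.add_apply, add_sub_add_comm]; exact I.add_mem (h i j) (h' i j)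

theorem MCong.sub {A B A' B' : Matrix m n R} (h : MCong I A B) (h' : MCong I A' B') :
    MCong I (A - A') (B - B') := fun i j => by
  rw [Matrix.sub_apply, Matrix.sub_apply, sub_sub_sub_comm]; exact I.sub_mem (h i j) (h' i j)

theorem MCong.smul {A B : Matrix m n R} (c : R) (h : MCong I A B) :
    MCong I (c • A) (c • B) := fun i j => by
  rw [Matrix.smul_apply, Matrix.smul_apply, ← smul_sub]; exact I.mul_mem_left c (h i j)

theorem MCong.smul' {A B : Matrix m n R} {c d : R} (hc : c - d ∈ I) (h : MCong I A B) :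
    MCong I (c • A) (d • B) := fun i j => by
  rw [Matrix.smul_apply, Matrix.smul_apply, smul_eq_mul, smul_eq_mul]
  have : c * A i j - d * B i j = (c - d) * A i j + d * (A i j - B i j) := by ring
  rw [this]
  exact I.add_mem (I.mul_mem_right _ hc) (I.mul_mem_left _ (h i j))

theorem MCong.mul [Fintype m] {A B : Matrix l m R} {A' B' : Matrix m n R} (h : MCong I A B)
    (h' : MCong I A' B') : MCong I (A * A') (B * B') := fun i j => by
  rw [Matrix.mul_apply, Matrix.mul_apply, ← Finset.sum_sub_distrib]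
  refine I.sum_mem fun k _ => ?_
  have : A i k * A' k j - B i k * B' k j = (A i k - B i k) * A' k j + B i k * (A' k j - B' k j) := by
    ring
  rw [this]
  exact I.add_mem (I.mul_mem_right _ (h i k)) (I.mul_mem_left _ (h' k j))

theorem MCong.pow [Fintype m] [DecidableEq m] {A B : Matrix m m R} (h : MCong I A B) (k : ℕ) :
    MCong I (A ^ k) (B ^ k) := by
  induction k with
  | zero => rw [pow_zero, pow_zero]; exact MCong.refl _
  | succ k ih => rw [pow_succ, pow_succ]; exact ih.mul h

theorem MCong.mulVec [Fintype n] {A B : Matrix m n R} (h : MCong I A B) (v : n → R) (i : m) :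
    (A.mulVec v) i - (B.mulVec v) i ∈ I := by
  rw [Matrix.mulVec, Matrix.mulVec, dotProduct, dotProduct, ← Finset.sum_sub_distrib]
  refine I.sum_mem fun k _ => ?_
  rw [← sub_mul]
  exact I.mul_mem_right _ (h i k)

theorem MCong.map {S : Type*} [CommRing S] (f : R →+* S) {K : Ideal S} (hK : I.map f ≤ K)
    {A B : Matrix m n R} (h : MCong I A B) : MCong K (A.map f) (B.map f) := fun i j => by
  rw [Matrix.map_apply, Matrix.map_apply, ← map_sub]
  exact hK (Ideal.mem_map_of_mem f (h i j))

end basic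

theorem pIdeal_succ_le (p n : ℕ) : pIdeal p (n + 1) ≤ pIdeal p n := by
  rw [pIdeal, pIdeal, Ideal.span_singleton_le_span_singleton]
  exact pow_dvd_pow _ n.le_succ

theorem pIdeal_mono (p : ℕ) {m n : ℕ} (h : m ≤ n) : pIdeal p n ≤ pIdeal p m := by
  rw [pIdeal, pIdeal, Ideal.span_singleton_le_span_singleton]
  exact pow_dvd_pow _ h

theorem pIdeal_map_le {𝒪 : Type*} [CommRing 𝒪] {I : Ideal 𝒪} {p : ℕ} (hp : (p : 𝒪) ∈ I) (n : ℕ) :
    (pIdeal p n).map (Int.castRingHom 𝒪) ≤ I ^ n := by
  rw [pIdeal, Ideal.map_span, Set.image_singleton, Ideal.span_singleton_le_iff_mem]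
  simpa using Ideal.pow_mem_pow hp n

section complete

variable {𝒪 : Type*} [CommRing 𝒪] (I : Ideal 𝒪) {m n : Type*}

theorem eq_of_forall_sub_mem [IsHausdorff I 𝒪] {x y : 𝒪} (h : ∀ k, x - y ∈ I ^ k) : x = y := by
  rw [← sub_eq_zero]
  refine IsHausdorff.haus (I := I) inferInstance _ fun k => ?_
  rw [SModEq.zero, smul_eq_mul, Ideal.mul_top]
  exact h k

theorem eq_of_forall_mcong [IsHausdorff I 𝒪] {A B : Matrix m n 𝒪}
    (h : ∀ k, MCong (I ^ k) A B) : A = B := by
  ext i j
  exact eq_of_forall_sub_mem I fun k => h k i j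

theorem exists_lim [IsPrecomplete I 𝒪] (a : ℕ → 𝒪) (h : ∀ k, a (k + 1) - a k ∈ I ^ k) :
    ∃ x : 𝒪, ∀ k, x - a k ∈ I ^ k := by
  have hmn : ∀ {k k' : ℕ}, k ≤ k' → a k ≡ a k' [SMOD (I ^ k • ⊤ : Submodule 𝒪 𝒪)] := by
    intro k k' hkk'
    rw [smul_eq_mul, Ideal.mul_top, SModEq.sub_mem]
    induction k', hkk' using Nat.le_induction with
    | base => rw [sub_self]; exact Ideal.zero_mem _
    | succ j hj ih =>
      rw [← sub_add_sub_cancel (a k) (a j) (a (j + 1))]
      refine Ideal.add_mem _ ih ?_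
      rw [← neg_sub]
      exact neg_mem (Ideal.pow_le_pow_right hj (h j))
  obtain ⟨L, hL⟩ := IsPrecomplete.prec (I := I) inferInstance hmn
  refine ⟨L, fun k => ?_⟩
  have := hL k
  rw [smul_eq_mul, Ideal.mul_top, SModEq.sub_mem] at this
  rw [← neg_sub]
  exact neg_mem this

theorem exists_mlim [IsPrecomplete I 𝒪] (a : ℕ → Matrix m n 𝒪)
    (h : ∀ k, MCong (I ^ k) (a (k + 1)) (a k)) : ∃ L : Matrix m n 𝒪, ∀ k, MCong (I ^ k) L (a k) := by
  choose L hL using fun i j => exists_lim I (fun k => a k i j) (fun k => h k i j)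
  exact ⟨Matrix.of L, fun k i j => hL i j k⟩

end complete

end Fermat.Agent.S30
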