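import Fermat.Agent.GES.System
import Fermat.Agent.NV.KappaLat

/-!
# The final assembly of the geometric input: chapters GES + NV + `S31/Lattice`

`kappaData N p : GES.KappaData N p` with `H = Hom_par(Γ₀(N), ℤ)`, `T = S31.latT N`,
`κ n = NV.kappa N (p ^ n)`; hence a `S31.KummerSystem N p` which is `S30.IsTate`.
-/

set_option autoImplicit false

noncomputable section

namespace Fermat.Agent.S30

open Fermat.Agent.S24 (Kb FN)

/-- the analytic uniformisation of the Kummer classes modulo `p ^ n`. -/
def kappaData (N p : ℕ) [NeZero N] [NeZero p] : GES.KappaData N p where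
  H := S31.Lat N
  T := S31.latT N
  link := S31.lat_link N
  κ := fun n => NV.kappa N (p ^ n)
  κ_ker := fun n h h0 => NV.kappa_ker N (p ^ n) h h0
  κ_T := fun n ℓ hℓ hℓNp h =>
    NV.kappa_latT N (p ^ n) ℓ hℓ (fun h1 => hℓNp (Dvd.dvd.mul_right h1 p)) h

/-- the Kummer system of `X₀(N)` at `p`. -/
def kummerSys (N p : ℕ) [NeZero N] [NeZero p] : S31.KummerSystem N p :=
  (kappaData N p).toKummerSystem

theorem isTate_kummerSys (N p : ℕ) [NeZero N] [NeZero p] : IsTate (kummerSys N p) :=
  (kappaData N p).isTate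
    (fun n σ h => by
      obtain ⟨h', hh'⟩ := NV.kappa_surjective N (p ^ n)
        (GES.rhoV N (p ^ n) σ (NV.kappa N (p ^ n) h))
      exact ⟨h', hh'.symm⟩)
    (fun n h => NV.kappa_trans N (pow_dvd_pow p (Nat.le_succ n)) h)

end Fermat.Agent.S30
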